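import Mathlib
import Fermat.Agent.LT.T7.H826.Level2Q
import Fermat.Agent.LT.T7.H534.SpecDownSpec

/-!
# Row LT, tower T7, NODE T7.L2Q.3 `L2Q.SpecDownQC` -- THE CUT, level 1 (sub-architect helper140)

OFF-MAIN.  Definitions, frozen Props and the PROVED top `specDownQC_of140`.
No hole, no opaque constant, nothing assumed.  ADDITIVE (new names only).
Vocabulary: `LT/T7/H826/Level2Q.lean` (helper826@4ba4a298a, sha256 3acaa310b421ebd6) and
`LT/T7/H534/SpecDownSpec.lean` (helper534@756e78a11), byte-identical copies.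
Typed MIRROR of the cut of the cyclic node `SpecDownC` by helper534 (registry row 1892).

    SpecDownQC F  ⟸  StfQC n + SD534.IwSysC ℚ + SphFormQC n + BCDataQC F n + BCUnitQC F n
                        + RealQC n + DownBasisQC F n         (n = w0, w1)
                        + T6.Inf.UpUnitaryC + T6.Inf.SphValuesC + T6.Inf.Sph0ParamC
                        + RealWtOneC                         (closed elsewhere: plugs)
                                                             (`specDownQC_of140`)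

## The idea (as in the cyclic case)

* The sequence `e` is CHOSEN: adapted to `W ⊕ W^⊥` (`W` = the invariant cusp functions of type
  `n`, `L2Q.IsWFnQ`), and inside `W` a SCHUR basis of every eigen-class for the commuting
  operators `Z`, `𝒰`, `B = R(f n g [] 0 0)`.  The atoms are the members of the basis.
* Summability of `x_i = ⟨B e_i, e_i⟩`: `T5.STFsigma` for `σ = id` and the type `n` (tower T5).
* Outside the `W`-part the diagonal coefficients vanish by `IsL2QData.kill_down`.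
* `IsL2QData.op_down` needs a base change datum `Ĉ_i` of the eigen-data `c_i` of `e_i` in the
  sense of `L2Q.IsBCDataQ`: the eigenvalue function of the circle means of `e_i` must be a
  SPHERICAL FUNCTION `2π · sphRad n.wt s ∘ cosh` (`SphFormQC`: adapter of the closed leaf
  `T6.ArchClassC`); then `Ĉ_i.m = 4π · sphC (2 s) ∘ cosh` (`BCDataQC`), unitary by
  `T6.Inf.UpUnitaryC` (`BCUnitQC`).
* Realisation: if `Ĉ_i` is spherical of parameter `0` then `s = 0` (`T6.Inf.SphValuesC`,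
  `T6.Inf.Sph0ParamC`); type `w0`: `e_i` itself is a form as in `A0.IsSph0CuspFormFor`;
  type `w1`: `e_i` has the mean-value property `T6.Inf.MeanValueWtOne` and `RealWtOneC`
  (= `H670.D3.realise_wtOne`, closed) gives an eigensystem with the same `a`, `b` which is
  cuspidal in the sense of `A0.notion556`.

## The leaves

* `StfQC n`      : `T5.STFsigma (T5.AdelicAut.id ℚ) 𝔫 n.type` for every level (tower T5, plug).
* `SD534.IwSysC ℚ` : Iwahori coset systems and scalar uniformisers exist (leaf SD.2 of helper534).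
* `SphFormQC n`  : the eigenvalue function of the circle means of a nonzero eigenfunction of type
  `n` is `2π · sphRad n.wt s (cosh t)` for some `s` (adapter of `T6.ArchClassC`).
* `BCDataQC F n` : a datum over `ℚ` of spherical form has a base change datum over `F` at ALL
  primes (`IsBCDataQ n c C ∅`).
* `BCUnitQC F n` : the base change of a unitary datum is unitary (`T6.Inf.UpUnitaryC` inside).
* `RealWtOneC`   : the statement of `H670.D3.realise_wtOne` with the fields written out (plug).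
* `RealQC n`     : REALISATION of an eigenfunction of type `n` and parameter `0`
  (`w0`: the function itself is a form as in A0; `w1`: `RealWtOneC`).
* `DownBasisQC F n` (NODE, cut in `DownBasisQSpec.lean`): the adapted Schur sequence exists.
-/

set_option autoImplicit false
set_option linter.unusedSectionVars false
set_option linter.unusedVariables false

open AutomorphicForm IsDedekindDomain NumberField MeasureTheory
open scoped ComplexConjugate

noncomputable section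

namespace Fermat.Agent.LT.T7.SDQ140

open Fermat.Agent.LT.H556 Fermat.Agent.LT.H556.A0 Fermat.Agent.LT.H670 Fermat.Agent.LT.T7
open Fermat.Agent.LT.T7.L2Q

attribute [local instance] Fermat.Agent.LT.T5.instMeasurableSpaceG

section Defs

variable {F : Type} [Field F] [NumberField F]

/-- The eigen-datum `c` over `ℚ` is UNITARY outside the level `𝔫`: the finite part as in
`SD534.IsUnitOut`; the circle means are self-adjoint of norm `≤ 2π`. -/
def IsUnitOutQ (𝔫 : Ideal (𝓞 ℚ)) (c : EigData ℚ) : Prop :=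
  (∀ v : HeightOneSpectrum (𝓞 ℚ), ¬ v.asIdeal ∣ 𝔫 →
      ‖c.b v‖ = 1 ∧ conj (c.a v) = c.a v * conj (c.b v) ∧
      ‖c.a v‖ * Real.sqrt (Ideal.absNorm v.asIdeal : ℝ) ≤ (Ideal.absNorm v.asIdeal : ℝ) + 1) ∧
    ∀ (w : InfinitePlace ℚ) (t : ℝ), 0 < t → (c.m w t).im = 0 ∧ ‖c.m w t‖ ≤ 2 * Real.pi

/-- The eigenvalue function of the circle means of type `n` is a spherical function:
`c.m w t = 2π · sphRad n.wt s (cosh t)` for some parameter `s`. -/
def IsSphForm (n : QWt) (c : EigData ℚ) : Prop :=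
  ∃ s : ℂ, ∀ (w : InfinitePlace ℚ) (t : ℝ), 0 < t →
    c.m w t = ((2 * Real.pi : ℝ) : ℂ) * T6.sphRad n.wt s (Real.cosh t)

/-- **THE ADAPTED SCHUR SEQUENCE of type `n`** for the bad element `g`, the Iwahori coset
system `H` and the scalar uniformiser `z` at the regular place `u` of `ℚ`
(mirror of `SD534.IsDownBasis`). -/
structure IsDownBasisQ (n : QWt) (Dt : L2QData F) (g : G F) (H : Finset (G ℚ)) (z : G ℚ)
    (e : ℕ → G ℚ → ℂ) (I : Set ℕ) (c : ℕ → EigData ℚ) (b l x : ℕ → ℂ) (R : ℝ) : Prop where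
  onb : T5.IsCuspONB (Dt.𝔫 g) n.type Dt.R.r Dt.R.μ Dt.R.F e
  perp : ∀ i, i ∉ I → ∀ χ : G ℚ → ℂ, IsWFnQ n (Dt.𝔫 g) Dt.R.r Dt.u χ →
    T5.innerD Dt.R.μ Dt.R.F (e i) χ = 0
  eig : ∀ i, i ∈ I → IsEigFnQ n (Dt.𝔫 g) Dt.R.r Dt.u (e i) (c i)
  ne : ∀ i, i ∈ I → ∃ y : G ℚ, e i y ≠ 0
  unit : ∀ i, i ∈ I → IsUnitOutQ (Dt.𝔫 g) (c i)
  tri : ∀ i, i ∈ I → ∀ (k : ℤ) (m : ℕ),
    T5.innerD Dt.R.μ Dt.R.F
        (T5.Rconv Dt.R.μ (Dt.f n g [] 0 0) (shiftOp z k ((iwOp Dt.u H)^[m] (e i)))) (e i)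
      = x i * b i ^ k * l i ^ m
  reg : ∀ i, i ∈ I → IsRegParam R (b i) (l i)

end Defs

/-! ## The leaves -/

section Leaves

/-- **SDQ.1 (tower T5, closed: plug).**  The trace identity of T5 over `ℚ` for `σ = id`, the
`K_∞`-type of `n`, every level. -/
def StfQC (n : QWt) : Prop :=
  ∀ 𝔫 : Ideal (𝓞 ℚ), 𝔫 ≠ ⊥ → T5.STFsigma (T5.AdelicAut.id ℚ) 𝔫 n.type

/-- **SDQ.3 (adapter of the closed leaf `T6.ArchClassC`).**  A nonzero invariant cusp function of
type `n` over `ℚ` with joint eigen-data `c` has circle means of spherical form.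
Route: restrict `ψ` to the real place, `e(x) = ψ(g₀ · x_∞)` with `ψ(g₀) ≠ 0`; `e` is continuous,
of weight `n.wt` in the convention of `T6.wtChar` (`wtOne (rotC θ) = e^{iθ}`,
`rotC θ = k_{-θ}`), invariant under the positive scalars; the circle means of `ArchClassC`
(`∫ e(x k_θ a_t k_θ⁻¹) dθ = 2π m(t) e(x)`) are those of `L2Q.MeanEigR0` / `L2Q.MeanEigR1`
(`rotY θ` = the rotation of angle `θ/2`; the integrand is `π`-periodic). -/
def SphFormQC (n : QWt) : Prop :=
  ∀ (𝔫 : Ideal (𝓞 ℚ)) (r : G ℚ) (u : HeightOneSpectrum (𝓞 ℚ)) (ψ : G ℚ → ℂ) (c : EigData ℚ),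
    T5.IsKType n.type → IsEigFnQ n 𝔫 r u ψ c → (∃ y : G ℚ, ψ y ≠ 0) → IsSphForm n c

variable (F : Type) [Field F] [NumberField F]

/-- **SDQ.4 (algebra).**  An eigen-datum over `ℚ` of spherical form has a base change datum over
`F` at ALL primes.  (`w ∩ ℤ = (p)` determines `p`, `p` determines the place `v` of `ℚ`, and
`N w = p^f` determines `f`: the finite part of `C` is well defined; the archimedean part is
`C.m w d = 4π · sphC (2 s) (cosh d)` for ONE parameter `s` of `c`.) -/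
def BCDataQC (n : QWt) : Prop :=
  ∀ c : EigData ℚ, IsSphForm n c → ∃ C : EigData F, IsBCDataQ n c C ∅

/-- **SDQ.5 (algebra + `T6.Inf.UpUnitaryC`).**  The base change of a datum which is unitary
outside `𝔫` is unitary outside `S'`, if every place outside `S'` lies over primes prime to `𝔫`
only.  (Finite part: as `SD534.BCUnitC`, every finite place `w` of `F` lies over a prime `p` and
`N w = p^f`; archimedean part: `c.m` real and bounded by `2π` gives `sphRad n.wt s ∘ cosh` real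
and bounded by `1`, hence `sphC (2 s) ∘ cosh` real and bounded by `1` by `UpUnitaryC`.  If `c.m`
has two parameters `s`, `s'` then `sphRad n.wt s = sphRad n.wt s'` on `(1, ∞)`; only the parameter
of the datum `IsBCDataQ n c C ∅` is used.) -/
def BCUnitQC (n : QWt) : Prop :=
  T6.Inf.UpUnitaryC →
  ∀ (S' : Finset (HeightOneSpectrum (𝓞 F))) (𝔫 : Ideal (𝓞 ℚ)) (c : EigData ℚ) (C : EigData F),
    (∀ w : HeightOneSpectrum (𝓞 F), w ∉ S' → ∀ (p : ℕ) (v : HeightOneSpectrum (𝓞 ℚ)),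
      p.Prime → ((p : ℕ) : 𝓞 F) ∈ w.asIdeal → ((p : ℕ) : 𝓞 ℚ) ∈ v.asIdeal →
      ¬ v.asIdeal ∣ 𝔫) →
    IsUnitOutQ 𝔫 c → IsBCDataQ n c C ∅ → C.IsUnitaryOut S'

end Leaves

/-- **SDQ.6 (plug of `H670.D3.realise_wtOne`, closed).**  The eigensystem of a weight-one
automorphic eigenform with the mean-value property of parameter `0` is, away from the level, the
eigensystem of a cuspidal one in the sense of `A0.notion556` (the hypotheses are the fields of
`H670.D3.IsWtOneSph0FormFor`, VERBATIM). -/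
def RealWtOneC : Prop :=
  ∀ (π : HeckeEigensystem ℚ ℂ) (φ : G ℚ → ℂ),
    Continuous φ → (∃ C : ℝ, ∀ g : G ℚ, ‖φ g‖ ≤ C) → (∃ g : G ℚ, φ g ≠ 0) →
    (∀ (γ : GL (Fin 2) ℚ) (g : G ℚ),
      φ (Matrix.GeneralLinearGroup.map (algebraMap ℚ (Adl ℚ)) γ * g) = φ g) →
    (∀ u : G ℚ, InLevelGroup π.level u → ∀ g : G ℚ, φ (g * u) = φ g) →
    (∀ (w : InfinitePlace ℚ) (z : G ℚ), IsArchPosScalar w z → ∀ g : G ℚ, φ (g * z) = φ g) →
    (∀ (w : InfinitePlace ℚ) (θ : ℝ) (k : G ℚ), IsLocalAtInf w k →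
      infComp w k = QOut.rotC θ →
      ∀ g : G ℚ, φ (g * k) = Complex.exp (Complex.I * ((θ : ℝ) : ℂ)) * φ g) →
    T6.Inf.MeanValueWtOne φ →
    (∀ v : HeightOneSpectrum (𝓞 ℚ), ¬ v.asIdeal ∣ π.level →
      IsHeckeEigenAt φ v (π.a v) (π.b v)) →
    ∃ π' : HeckeEigensystem ℚ ℂ, π'.a = π.a ∧ π'.b = π.b ∧ A0.notion556.IsCusp ℚ π'

section Node

variable (F : Type) [Field F] [NumberField F]

/-- **SDQ.7 = NODE DOWN-BASIS over `ℚ`, type `n`.**  The adapted Schur sequence exists, for every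
Iwahori coset system and every scalar uniformiser at the regular place
(mirror of `SD534.DownBasisC`). -/
def DownBasisQC (n : QWt) : Prop :=
  HasSqrtNegThree F → IsImagQuad F →
    ∀ Φ : HeckeEigensystem F ℂ, A0.IsCuspAdelicSph0 F Φ → ConstOnFibresQ Φ →
      ∀ Dt : L2QData F, IsL2QData Φ Dt → ∀ g : G F, Dt.IsBad g →
      ∀ (H : Finset (G ℚ)) (z : G ℚ), IsIwCosetSystem Dt.u H → IsScalarUniformizerAt Dt.u z →
        ∃ (e : ℕ → G ℚ → ℂ) (I : Set ℕ) (c : ℕ → EigData ℚ) (b l x : ℕ → ℂ) (R : ℝ),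
          IsDownBasisQ n Dt g H z e I c b l x R

end Node

/-- **SDQ.8 = REALISATION of the parameter `0`, type `n`.**  A nonzero invariant cusp function of
type `n` over `ℚ` with joint eigen-data `c` whose circle means have the eigenvalue function of
parameter `0` (`c.m w t = 2π · sphRad n.wt 0 (cosh t)`) has an eigensystem which is cuspidal in
the sense of `A0.notion556`, with the same `a`, `b`.
Route.  `w0`: `2π · sphR0 0 (cosh t)` is the constant of `A0.MeanValueReal`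
(`T6.Inf.SphValuesC`), `ψ` is a form as in `A0.IsSph0CuspFormFor ⟨𝔫, _, c.a, c.b⟩` (`ℚ` has no
complex place).  `w1`: `2π · sphR1 0 (cosh t) = 2π / cosh (t/2)` is the constant of
`T6.Inf.MeanValueWtOne`; `ψ (g k) = wtOne k · ψ g` with `wtOne k = e^{iθ}` for
`infComp k = rotC θ` (`L2Q.wtOne_rotC`; `rotC θ` is in `SO(2)`); then `RealWtOneC`. -/
def RealQC (n : QWt) : Prop :=
  T6.Inf.SphValuesC → RealWtOneC →
  ∀ (𝔫 : Ideal (𝓞 ℚ)) (r : G ℚ) (u : HeightOneSpectrum (𝓞 ℚ)) (ψ : G ℚ → ℂ) (c : EigData ℚ),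
    𝔫 ≠ ⊥ → IsEigFnQ n 𝔫 r u ψ c → (∃ y : G ℚ, ψ y ≠ 0) →
    (∀ (w : InfinitePlace ℚ) (t : ℝ), 0 < t →
      c.m w t = ((2 * Real.pi : ℝ) : ℂ) * T6.sphRad n.wt 0 (Real.cosh t)) →
    ∃ π' : HeckeEigensystem ℚ ℂ, π'.a = c.a ∧ π'.b = c.b ∧ A0.notion556.IsCusp ℚ π'

/-! ## The top -/

section Top

variable {F : Type} [Field F] [NumberField F]

/-- `IsBCDataQ` is monotone in the set of excluded primes. -/
theorem isBCDataQ_mono140 {n : QWt} {c : EigData ℚ} {C : EigData F} {S T : Finset ℕ}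
    (hST : S ⊆ T) (h : IsBCDataQ n c C S) : IsBCDataQ n c C T :=
  ⟨fun p hp hpT v hv w f hw hf => h.1 p hp (fun hpS => hpT (hST hpS)) v hv w f hw hf, h.2⟩

open Classical in
/-- The realised eigensystem of the datum `c` at the level `𝔫`: a cuspidal eigensystem (in the
sense of `A0.notion556`) with the same `a`, `b` if there is one, `⟨𝔫, c.a, c.b⟩` otherwise. -/
def realOf140 (𝔫 : Ideal (𝓞 ℚ)) (h𝔫 : 𝔫 ≠ ⊥) (c : EigData ℚ) : HeckeEigensystem ℚ ℂ :=
  if h : ∃ π' : HeckeEigensystem ℚ ℂ, π'.a = c.a ∧ π'.b = c.b ∧ A0.notion556.IsCusp ℚ π'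
  then h.choose else ⟨𝔫, h𝔫, c.a, c.b⟩

theorem realOf_a140 (𝔫 : Ideal (𝓞 ℚ)) (h𝔫 : 𝔫 ≠ ⊥) (c : EigData ℚ) :
    (realOf140 𝔫 h𝔫 c).a = c.a := by
  unfold realOf140
  split_ifs with h
  · exact h.choose_spec.1
  · rfl

theorem realOf_b140 (𝔫 : Ideal (𝓞 ℚ)) (h𝔫 : 𝔫 ≠ ⊥) (c : EigData ℚ) :
    (realOf140 𝔫 h𝔫 c).b = c.b := by
  unfold realOf140
  split_ifs with h
  · exact h.choose_spec.2.1
  · rfl

theorem realOf_cusp140 (𝔫 : Ideal (𝓞 ℚ)) (h𝔫 : 𝔫 ≠ ⊥) (c : EigData ℚ)
    (h : ∃ π' : HeckeEigensystem ℚ ℂ, π'.a = c.a ∧ π'.b = c.b ∧ A0.notion556.IsCusp ℚ π') :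
    A0.notion556.IsCusp ℚ (realOf140 𝔫 h𝔫 c) := by
  unfold realOf140
  rw [dif_pos h]
  exact h.choose_spec.2.2

/-- If the base change of a datum is spherical of parameter `0`, the parameter downstairs is
`0`. -/
theorem param_zero140 (hVal : T6.Inf.SphValuesC) (hPar : T6.Inf.Sph0ParamC) {n : QWt}
    {c : EigData ℚ} {C : EigData F} {S : Finset ℕ} (hbc : IsBCDataQ n c C S) (hC : C.IsSph0) :
    ∀ (w : InfinitePlace ℚ) (t : ℝ), 0 < t →
      c.m w t = ((2 * Real.pi : ℝ) : ℂ) * T6.sphRad n.wt 0 (Real.cosh t) := by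
  obtain ⟨s, hcm, hCm⟩ := hbc.2
  have w₀ : InfinitePlace F := Classical.arbitrary _
  have hs : s = 0 := by
    refine hPar s (fun d hd => ?_)
    have h1 := hCm w₀ d hd
    have h2 := hC w₀ d hd
    have h3 := hVal.1 d hd
    rw [h3]
    rw [h2] at h1
    unfold sph0 at h1
    have hpi : ((4 * Real.pi : ℝ) : ℂ) ≠ 0 := by
      have : (4 * Real.pi : ℝ) ≠ 0 := by positivity
      exact_mod_cast this
    apply mul_left_cancel₀ hpi
    rw [← h1]
    push_cast
    ring
  intro w t ht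
  rw [hcm w t ht, hs]

/-- **THE TOP of the node T7.L2Q.3**, one type. -/
theorem specDownQAt_of140 (n : QWt) (hStf : StfQC n) (hIw : SD534.IwSysC ℚ)
    (hSph : SphFormQC n) (hBC : BCDataQC F n) (hBU : BCUnitQC F n) (hReal : RealQC n)
    (hUni : T6.Inf.UpUnitaryC) (hVal : T6.Inf.SphValuesC) (hPar : T6.Inf.Sph0ParamC)
    (hW1 : RealWtOneC) (hDB : DownBasisQC F n) : SpecDownQAt F n := by
  classical
  intro h3 hquad Φ hΦ hconst Dt hDt g hg
  obtain ⟨⟨H, hH⟩, ⟨z, hz⟩⟩ := hIw Dt.u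
  obtain ⟨e, I, c, b, l, x, R, hB⟩ := hDB h3 hquad Φ hΦ hconst Dt hDt g hg H z hH hz
  have hcomp : IsCompData (Dt.comp g) := hDt.comp g hg
  have hlev : Dt.𝔫 g ≠ ⊥ := hcomp.level_ne
  have hnil : ∀ x ∈ ([] : List (Gen F)), x.Out Dt.S' := fun x hx => absurd hx (List.not_mem_nil)
  have hkt : T5.IsKType n.type := (hDt.ekprod_down n g [] 0 0 hg hnil).1.ktype
  -- the base change data
  have hex : ∀ i : ℕ, ∃ C : EigData F, i ∈ I → IsBCDataQ n (c i) C ∅ := by
    intro i
    by_cases hi : i ∈ I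
    · obtain ⟨C, hC⟩ := hBC (c i) (hSph (Dt.𝔫 g) Dt.R.r Dt.u (e i) (c i) hkt (hB.eig i hi)
        (hB.ne i hi))
      exact ⟨C, fun _ => hC⟩
    · exact ⟨⟨fun _ => 0, fun _ => 0, fun _ _ => 0⟩, fun h => absurd h hi⟩
  choose Ch hCh0 using hex
  have hCh : ∀ i, i ∈ I → IsBCDataQ n (c i) (Ch i) Dt.S := fun i hi =>
    isBCDataQ_mono140 (Finset.empty_subset _) (hCh0 i hi)
  -- the diagonal coefficient of the base
  have hx : ∀ i, i ∈ I →
      T5.diagCoeff (T5.AdelicAut.id ℚ) Dt.R.μ Dt.R.F (Dt.f n g [] 0 0) (e i) = x i := by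
    intro i hi
    rw [SD534.diagCoeff_id534]
    have h := hB.tri i hi 0 0
    rw [SD534.shiftOp_zero534, Function.iterate_zero, id_eq, zpow_zero, pow_zero, mul_one,
      mul_one] at h
    exact h
  -- summability from T5
  have hsum : Summable fun i => T5.diagCoeff (T5.AdelicAut.id ℚ) Dt.R.μ Dt.R.F
      (Dt.f n g [] 0 0) (e i) := by
    obtain ⟨-, φ₁, φ₂, t₁, t₂, k₁, k₁', k₂, k₂', hconv⟩ := hDt.ekprod_down n g [] 0 0 hg hnil
    rw [hconv]
    exact (hStf (Dt.𝔫 g) hlev Dt.R.μ Dt.R.F Dt.R.r hcomp.frame.frame hcomp.frame.ray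
      (T5.autPreserves_id _ _ _) e hB.onb φ₁ φ₂ t₁ t₂ k₁ k₁' k₂ k₂').1
  refine ⟨e, {i : ℕ // i ∈ I}, fun i => realOf140 (Dt.𝔫 g) hlev (c i.1), fun i => Ch i.1,
    fun i => b i.1, fun i => l i.1, R, fun i => x i.1, hB.onb, ?_, ?_, ?_, ?_, ?_, ?_⟩
  · -- summability of the coefficients
    have h1 : Summable fun i : {i : ℕ // i ∈ I} =>
        ‖T5.diagCoeff (T5.AdelicAut.id ℚ) Dt.R.μ Dt.R.F (Dt.f n g [] 0 0) (e i.1)‖ :=
      (hsum.norm).subtype I
    refine h1.congr fun i => ?_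
    rw [hx i.1 i.2]
  · -- unitarity of the base change data
    intro i
    refine hBU hUni Dt.S' (Dt.𝔫 g) (c i.1) (Ch i.1) ?_ (hB.unit i.1 i.2) (hCh0 i.1 i.2)
    intro w hw p v hp hpw hpv hv
    apply hw
    rw [hDt.mem_S'_g g hg w]
    show w.asIdeal ∣ Ideal.map (algebraMap (𝓞 ℚ) (𝓞 F)) (Dt.𝔫 g)
    rw [Ideal.dvd_iff_le, Ideal.map_le_iff_le_comap]
    intro y hy
    rw [Ideal.mem_comap]
    -- `v` is the ideal `(p)` of `𝓞 ℚ`, and `p ∈ w`
    have hyv : y ∈ v.asIdeal := (Ideal.dvd_iff_le.1 hv) hy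
    have hspan : v.asIdeal = Ideal.span {((p : ℕ) : 𝓞 ℚ)} := by
      have hle : Ideal.span {((p : ℕ) : 𝓞 ℚ)} ≤ v.asIdeal :=
        (Ideal.span_singleton_le_iff_mem _).2 hpv
      have hpne : ((p : ℕ) : 𝓞 ℚ) ≠ 0 := by
        exact_mod_cast hp.ne_zero
      have hmax : (Ideal.span {((p : ℕ) : 𝓞 ℚ)}).IsMaximal := by
        have hprime : (Ideal.span {((p : ℕ) : 𝓞 ℚ)}).IsPrime := by
          rw [Ideal.span_singleton_prime hpne]
          have hpZ : Prime ((p : ℕ) : ℤ) := Nat.prime_iff_prime_int.1 hp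
          refine (MulEquiv.prime_iff Rat.ringOfIntegersEquiv).1 ?_
          rw [map_natCast]
          exact hpZ
        exact hprime.isMaximal (by simpa [Ideal.span_singleton_eq_bot] using hpne)
      exact (hmax.eq_of_le v.isPrime.ne_top hle).symm
    rw [hspan, Ideal.mem_span_singleton] at hyv
    obtain ⟨y', rfl⟩ := hyv
    rw [map_mul]
    exact Ideal.mul_mem_right _ _ (by simpa using hpw)
  · -- base change
    intro i p hp hpS v hv w f hw hf
    rw [realOf_a140, realOf_b140]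
    exact (hCh i.1 i.2).1 p hp hpS v hv w f hw hf
  · intro i
    exact hB.reg i.1 i.2
  · -- the expansion
    intro X hX k m hm
    unfold specSide
    have hterm : ∀ i : ℕ, T5.diagCoeff (T5.AdelicAut.id ℚ) Dt.R.μ Dt.R.F (Dt.f n g X k m) (e i)
        = if i ∈ I then wordEv X (Ch i) * x i * b i ^ k * l i ^ m else 0 := by
      intro i
      rw [SD534.diagCoeff_id534]
      by_cases hi : i ∈ I
      · rw [if_pos hi]
        have hop := hDt.op_down n g X k m hg hX (e i) (c i) (Ch i) (hB.eig i hi) (hCh i hi)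
          H z hH hz
        rw [SD534.innerD_const_mul534 Dt.R.μ Dt.R.F (wordEv X (Ch i)) _ _ (e i) hop,
          hB.tri i hi k m]
        ring
      · rw [if_neg hi]
        exact SD534.innerD_zero_left534 _ _ _ _
          (hDt.kill_down n g X k m hg hX (e i) (hB.onb.cusp i) (hB.perp i hi))
    have hsupp : Function.support (fun i : ℕ =>
        T5.diagCoeff (T5.AdelicAut.id ℚ) Dt.R.μ Dt.R.F (Dt.f n g X k m) (e i)) ⊆ I := by
      intro i hi
      by_contra hiI
      apply hi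
      show T5.diagCoeff (T5.AdelicAut.id ℚ) Dt.R.μ Dt.R.F (Dt.f n g X k m) (e i) = 0
      rw [hterm i, if_neg hiI]
    rw [← tsum_subtype_eq_of_support_subset hsupp]
    refine tsum_congr fun i => ?_
    rw [hterm i.1, if_pos i.2]
  · -- realisation
    intro i hsph
    exact realOf_cusp140 (Dt.𝔫 g) hlev (c i.1)
      (hReal hVal hW1 (Dt.𝔫 g) Dt.R.r Dt.u (e i.1) (c i.1) hlev (hB.eig i.1 i.2)
        (hB.ne i.1 i.2) (param_zero140 hVal hPar (hCh i.1 i.2) hsph))

/-- **THE TOP of the node T7.L2Q.3** (target `L2Q.SpecDownQC F`, VERBATIM). -/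
theorem specDownQC_of140 (hStf : ∀ n, StfQC n) (hIw : SD534.IwSysC ℚ)
    (hSph : ∀ n, SphFormQC n) (hBC : ∀ n, BCDataQC F n) (hBU : ∀ n, BCUnitQC F n)
    (hReal : ∀ n, RealQC n) (hUni : T6.Inf.UpUnitaryC) (hVal : T6.Inf.SphValuesC)
    (hPar : T6.Inf.Sph0ParamC) (hW1 : RealWtOneC) (hDB : ∀ n, DownBasisQC F n) :
    SpecDownQC F :=
  fun n => specDownQAt_of140 n (hStf n) hIw (hSph n) (hBC n) (hBU n) (hReal n) hUni hVal hPar
    hW1 (hDB n)

end Top

end Fermat.Agent.LT.T7.SDQ140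

end
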