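import Mathlib
import Fermat.Agent.LT.T7.H140.SpecDownQSpec
import Fermat.Agent.LT.T7.H534.DownBasisSpec

/-!
# Row LT, tower T7, NODE T7.L2Q.3.7 `SDQ140.DownBasisQC` -- THE CUT, level 2 (helper140)

OFF-MAIN.  Definitions and frozen Props; the assembly `downBasisQC_of140` is in
`DownBasisQTop.lean`.  No hole, nothing assumed.  ADDITIVE.
Typed MIRROR over `ℚ` of `LT/T7/H534/DownBasisSpec.lean` (helper534@b2ea72787, byte-identical
copy); `SD534.clsSpan` and the abstract leaf `SD534.SchurSeqC` (Mathlib only) are REUSED verbatim.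

    DownBasisQC F n  ⟸  CuspFormQC n + WSubQC n + OpsClassQC n + WBasisQC n + SD534.SchurSeqC
                          + RegParamFnQC n + SubSeqQC n        (+ the fields of `IsL2QData`)

Notation: `V` = the cusp functions over `ℚ` of level `𝔫`, `K_∞`-type `n.type`, invariant under
the ray generator (`InVQ`); `W ⊆ V` = the INVARIANT cusp functions (`InWQ` = `L2Q.IsWFnQ`:
invariant under the positive scalars at the real place and under the Iwahori subgroup at `u`,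
`u ∣ 𝔫`); `InClsQ c` = the members of `W` with joint eigen-data `c` (`L2Q.IsEigFnQ`);
`⟨f, f'⟩ = T5.innerD μ F f f'` (linear in `f`).

## The leaves (every one is the typed form of the leaf of helper534 with the same name)

* `CuspFormQC n`  : `⟨ , ⟩` is a positive definite hermitian form on `V`; `R(φ)` is linear on `V`
  for the test functions of type `n.type`.
* `WSubQC n`      : `V`, `W` and the classes are closed under `+` and scalar multiplication.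
* `OpsClassQC n`  : `Z^k` and `𝒰` preserve the classes and commute.
* `WBasisQC n` (NODE, port of the closed tower T2 in the class of T5, `T2.cuspSpecT_closed`, to
  `ℚ`, the type `n` and the Iwahori level at `u`).
* `SD534.SchurSeqC` (MATHLIB ONLY, abstract; leaf DB.5 of helper534, reused).
* `RegParamFnQC n` (NODE; local at `u`, the type plays no role): the joint eigenvalues of
  `(Z, 𝒰)` on `W` satisfy `IsRegParam √q`.
* `SubSeqQC n`    : every subspace of `V` has a complete orthonormal sequence (zeros allowed).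
-/

set_option autoImplicit false
set_option linter.unusedSectionVars false
set_option linter.unusedVariables false

open AutomorphicForm IsDedekindDomain NumberField MeasureTheory
open scoped ComplexConjugate

noncomputable section

namespace Fermat.Agent.LT.T7.SDQ140

open Fermat.Agent.LT.H556 Fermat.Agent.LT.H556.A0 Fermat.Agent.LT.H670 Fermat.Agent.LT.T7
open Fermat.Agent.LT.T7.L2Q

attribute [local instance] Fermat.Agent.LT.T5.instMeasurableSpaceG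

section Defs

/-- `f ∈ V`: a cusp function over `ℚ` of level `𝔫`, `K_∞`-type `n.type`, invariant under `r`. -/
def InVQ (n : QWt) (𝔫 : Ideal (𝓞 ℚ)) (r : G ℚ) (f : G ℚ → ℂ) : Prop :=
  T5.IsCuspFn 𝔫 n.type r f

/-- `χ ∈ W`: an invariant cusp function of type `n` for the regular place `u`. -/
def InWQ (n : QWt) (𝔫 : Ideal (𝓞 ℚ)) (r : G ℚ) (u : HeightOneSpectrum (𝓞 ℚ))
    (χ : G ℚ → ℂ) : Prop :=
  IsWFnQ n 𝔫 r u χ

/-- `ψ` is a member of `W` with joint eigen-data `c`. -/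
def InClsQ (n : QWt) (𝔫 : Ideal (𝓞 ℚ)) (r : G ℚ) (u : HeightOneSpectrum (𝓞 ℚ))
    (c : EigData ℚ) (ψ : G ℚ → ℂ) : Prop :=
  IsEigFnQ n 𝔫 r u ψ c

theorem InClsQ.inW {n : QWt} {𝔫 : Ideal (𝓞 ℚ)} {r : G ℚ} {u : HeightOneSpectrum (𝓞 ℚ)}
    {c : EigData ℚ} {ψ : G ℚ → ℂ} (h : InClsQ n 𝔫 r u c ψ) : InWQ n 𝔫 r u ψ := h.inv

theorem InWQ.inV {n : QWt} {𝔫 : Ideal (𝓞 ℚ)} {r : G ℚ} {u : HeightOneSpectrum (𝓞 ℚ)}
    {χ : G ℚ → ℂ} (h : InWQ n 𝔫 r u χ) : InVQ n 𝔫 r χ := h.cusp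

/-- The hermitian form on `V` and the linearity of the convolutions. -/
structure IsCuspFormQ (n : QWt) (μ : Measure (G ℚ)) (F : Set (G ℚ)) (r : G ℚ)
    (𝔫 : Ideal (𝓞 ℚ)) : Prop where
  add_left : ∀ f f' f'' : G ℚ → ℂ, InVQ n 𝔫 r f → InVQ n 𝔫 r f' → InVQ n 𝔫 r f'' →
    T5.innerD μ F (f + f') f'' = T5.innerD μ F f f'' + T5.innerD μ F f' f''
  smul_left : ∀ (a : ℂ) (f f' : G ℚ → ℂ), InVQ n 𝔫 r f → InVQ n 𝔫 r f' →
    T5.innerD μ F (a • f) f' = a * T5.innerD μ F f f'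
  conj_symm : ∀ f f' : G ℚ → ℂ, InVQ n 𝔫 r f → InVQ n 𝔫 r f' →
    T5.innerD μ F f' f = conj (T5.innerD μ F f f')
  nonneg : ∀ f : G ℚ → ℂ, InVQ n 𝔫 r f → 0 ≤ (T5.innerD μ F f f).re
  definite : ∀ f : G ℚ → ℂ, InVQ n 𝔫 r f → T5.innerD μ F f f = 0 → f = 0
  conv_add : ∀ φ f f' : G ℚ → ℂ, T5.IsTestFn 𝔫 n.type φ → InVQ n 𝔫 r f → InVQ n 𝔫 r f' →
    T5.Rconv μ φ (f + f') = T5.Rconv μ φ f + T5.Rconv μ φ f'
  conv_smul : ∀ (φ : G ℚ → ℂ) (a : ℂ) (f : G ℚ → ℂ), T5.IsTestFn 𝔫 n.type φ →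
    InVQ n 𝔫 r f → T5.Rconv μ φ (a • f) = a • T5.Rconv μ φ f

/-- `V`, `W` and the classes are linear subspaces of the functions on `GL₂(𝔸_ℚ)`. -/
structure IsWSubQ (n : QWt) (𝔫 : Ideal (𝓞 ℚ)) (r : G ℚ) (u : HeightOneSpectrum (𝓞 ℚ)) :
    Prop where
  zeroW : InWQ n 𝔫 r u (0 : G ℚ → ℂ)
  addV : ∀ f f' : G ℚ → ℂ, InVQ n 𝔫 r f → InVQ n 𝔫 r f' → InVQ n 𝔫 r (f + f')
  smulV : ∀ (a : ℂ) (f : G ℚ → ℂ), InVQ n 𝔫 r f → InVQ n 𝔫 r (a • f)
  addW : ∀ f f' : G ℚ → ℂ, InWQ n 𝔫 r u f → InWQ n 𝔫 r u f' → InWQ n 𝔫 r u (f + f')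
  smulW : ∀ (a : ℂ) (f : G ℚ → ℂ), InWQ n 𝔫 r u f → InWQ n 𝔫 r u (a • f)
  addC : ∀ (c : EigData ℚ) (f f' : G ℚ → ℂ), InClsQ n 𝔫 r u c f → InClsQ n 𝔫 r u c f' →
    InClsQ n 𝔫 r u c (f + f')
  smulC : ∀ (c : EigData ℚ) (a : ℂ) (f : G ℚ → ℂ), InClsQ n 𝔫 r u c f →
    InClsQ n 𝔫 r u c (a • f)

/-- The operators at the regular place preserve the classes and commute. -/
structure IsOpsClassQ (n : QWt) (𝔫 : Ideal (𝓞 ℚ)) (r : G ℚ) (u : HeightOneSpectrum (𝓞 ℚ))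
    (H : Finset (G ℚ)) (z : G ℚ) : Prop where
  shift : ∀ (c : EigData ℚ) (ψ : G ℚ → ℂ) (k : ℤ), InClsQ n 𝔫 r u c ψ →
    InClsQ n 𝔫 r u c (shiftOp z k ψ)
  iw : ∀ (c : EigData ℚ) (ψ : G ℚ → ℂ), InClsQ n 𝔫 r u c ψ → InClsQ n 𝔫 r u c (iwOp u H ψ)
  comm : ∀ (ψ : G ℚ → ℂ) (k : ℤ), iwOp u H (shiftOp z k ψ) = shiftOp z k (iwOp u H ψ)

/-- An orthonormal sequence of joint eigenfunctions of type `n`, complete in `W`, with finite
classes which exhaust the eigenfunctions. -/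
structure IsWBasisQ (n : QWt) (μ : Measure (G ℚ)) (F : Set (G ℚ)) (r : G ℚ) (𝔫 : Ideal (𝓞 ℚ))
    (u : HeightOneSpectrum (𝓞 ℚ)) (w : ℕ → G ℚ → ℂ) (J : Set ℕ) (c : ℕ → EigData ℚ) :
    Prop where
  eig : ∀ j, j ∈ J → InClsQ n 𝔫 r u (c j) (w j)
  unit : ∀ j, j ∈ J → IsUnitOutQ 𝔫 (c j)
  norm_one : ∀ j, j ∈ J → T5.innerD μ F (w j) (w j) = 1
  orth : ∀ i, i ∈ J → ∀ j, j ∈ J → i ≠ j → T5.innerD μ F (w i) (w j) = 0
  parseval : ∀ χ : G ℚ → ℂ, InWQ n 𝔫 r u χ →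
    HasSum (fun j : J => ‖T5.innerD μ F χ (w j)‖ ^ 2) (T5.innerD μ F χ χ).re
  finite : ∀ j₀, j₀ ∈ J → {j : ℕ | j ∈ J ∧ c j = c j₀}.Finite
  exhaust : ∀ j₀, j₀ ∈ J → ∀ ψ : G ℚ → ℂ, InClsQ n 𝔫 r u (c j₀) ψ →
    ψ ∈ SD534.clsSpan w J c (c j₀)

end Defs

/-! ## The leaves -/

section Leaves

/-- **DBQ.1 FORM** (typed form of `SD534.CuspFormC`).  `⟨ , ⟩` is a positive definite hermitian
form on the cusp functions of type `n` and the convolution by a test function of type `n` is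
linear on them.  (Cusp functions are continuous and bounded, `μ F < ∞`; a test function is
continuous with compact support; definiteness: `f = 0` a.e. on `F`, hence a.e. on
`GL₂(𝔸_ℚ) = ⋃ γ F rᵐ`, hence everywhere: `T2.PairDefiniteT` for the frame of T5.) -/
def CuspFormQC (n : QWt) : Prop :=
  ∀ (μ : Measure (G ℚ)) (F : Set (G ℚ)) (r : G ℚ) (𝔫 : Ideal (𝓞 ℚ)), 𝔫 ≠ ⊥ →
    T5.IsKType n.type → T5.IsFrame μ F → T5.IsRayGen r → IsCuspFormQ n μ F r 𝔫

/-- **DBQ.2 SUBSPACES** (typed form of `SD534.WSubC`).  (Every condition of `T5.IsCuspFn`,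
`L2Q.IsWFnQ`, `L2Q.IsEigFnQ` is linear; the constant term needs the integrability of a bounded
continuous function on a fundamental domain of `ℚ` in `𝔸_ℚ`, which has finite measure: T1.) -/
def WSubQC (n : QWt) : Prop :=
  ∀ (𝔫 : Ideal (𝓞 ℚ)) (r : G ℚ) (u : HeightOneSpectrum (𝓞 ℚ)), IsWSubQ n 𝔫 r u

/-- **DBQ.3 OPS** (typed form of `SD534.OpsClassC`).  For `u ∣ 𝔫`, an Iwahori coset system `H`
and a scalar uniformiser `z` at `u`: `Z^k` and `𝒰` map a member of `W` with eigen-data `c` to a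
member of `W` with eigen-data `c`, and `𝒰 Z^k = Z^k 𝒰`. -/
def OpsClassQC (n : QWt) : Prop :=
  ∀ (𝔫 : Ideal (𝓞 ℚ)) (r : G ℚ) (u : HeightOneSpectrum (𝓞 ℚ)) (H : Finset (G ℚ)) (z : G ℚ),
    𝔫 ≠ ⊥ → T5.IsKType n.type → T5.IsRayGen r → u.asIdeal ∣ 𝔫 → IsIwCosetSystem u H →
    IsScalarUniformizerAt u z → IsOpsClassQ n 𝔫 r u H z

/-- **DBQ.4 = NODE W-BASIS over `ℚ`, type `n`** (port of the closed tower T2 in the class of T5
to the Iwahori level at `u`).  Route: `T2.cuspSpecT_closed` for `(ℚ, 𝔫, n.type)` (joint eigenbasis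
of the cusp functions of type `n.type`, finite classes), the members of `W` are the cusp
functions of T2 which are invariant under the positive scalars at the real place (central
character `c j = 1`) and under the Iwahori subgroup at `u`; the projector `P` = average over
`I_u / U(𝔫)_u` (a finite group) commutes with the operators of T2, so `W ∩ V_c = P V_c`;
Gram--Schmidt in `P V_c`.  The circle means of T2 (`T2.MeanEigRT`, `rotY θ` = rotation of angle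
`θ/2`) are those of `L2Q.MeanEigR0` / `L2Q.MeanEigR1` (`QOut.rotC θ = k_{-θ}`).  The eigen-data
are NORMALISED (`0` at the places dividing `𝔫` and at the radii `t ≤ 0`), so that two members
are in the same class iff their data are EQUAL.  Unitarity `IsUnitOutQ`: `T2.IsCuspBasisT`
(`unit_b`, `conj_a`, `bound_a`, `real_m`) and `|m| ≤ 2π` (a bounded eigenfunction of the circle
mean, which is an average over a set of mass `2π`). -/
def WBasisQC (n : QWt) : Prop :=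
  ∀ (μ : Measure (G ℚ)) (F : Set (G ℚ)) (r : G ℚ) (𝔫 : Ideal (𝓞 ℚ))
    (u : HeightOneSpectrum (𝓞 ℚ)), 𝔫 ≠ ⊥ → T5.IsKType n.type → T5.IsFrame μ F →
    T5.IsRayGen r → u.asIdeal ∣ 𝔫 →
      ∃ (w : ℕ → G ℚ → ℂ) (J : Set ℕ) (c : ℕ → EigData ℚ), IsWBasisQ n μ F r 𝔫 u w J c

/-- **DBQ.6 = NODE REG-PARAM over `ℚ`, type `n`** (typed form of `SD534.RegParamFnC`; the
`K_∞`-type plays no role).  A nonzero member of `W` which is a joint eigenfunction of `Z` and `𝒰`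
with eigenvalues `(b, l)` has `IsRegParam √q b l`. -/
def RegParamFnQC (n : QWt) : Prop :=
  ∀ (μ : Measure (G ℚ)) (F : Set (G ℚ)) (r : G ℚ) (𝔫 : Ideal (𝓞 ℚ))
    (u : HeightOneSpectrum (𝓞 ℚ)) (H : Finset (G ℚ)) (z : G ℚ),
    𝔫 ≠ ⊥ → T5.IsKType n.type → T5.IsFrame μ F → T5.IsRayGen r → u.asIdeal ∣ 𝔫 →
    IsIwCosetSystem u H → IsScalarUniformizerAt u z →
    ∀ (ψ : G ℚ → ℂ) (b l : ℂ), InWQ n 𝔫 r u ψ → (∃ y : G ℚ, ψ y ≠ 0) →
      shiftOp z 1 ψ = b • ψ → iwOp u H ψ = l • ψ →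
      IsRegParam (Real.sqrt (Ideal.absNorm u.asIdeal : ℝ)) b l

/-- **DBQ.7 SUB-SEQ** (typed form of `SD534.SubSeqC`).  Every linear subspace `S` of the cusp
functions of type `n` has an orthonormal sequence (zero vectors allowed) of members of `S` which
is complete in `S`. -/
def SubSeqQC (n : QWt) : Prop :=
  ∀ (μ : Measure (G ℚ)) (F : Set (G ℚ)) (r : G ℚ) (𝔫 : Ideal (𝓞 ℚ)), 𝔫 ≠ ⊥ →
    T5.IsKType n.type → T5.IsFrame μ F → T5.IsRayGen r →
    ∀ S : (G ℚ → ℂ) → Prop, (∀ f, S f → InVQ n 𝔫 r f) → S 0 →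
      (∀ f f', S f → S f' → S (f + f')) → (∀ (a : ℂ) (f : G ℚ → ℂ), S f → S (a • f)) →
      ∃ p : ℕ → G ℚ → ℂ, (∀ k, S (p k)) ∧
        (∀ k m, k ≠ m → T5.innerD μ F (p k) (p m) = 0) ∧
        (∀ k, T5.innerD μ F (p k) (p k) = 1 ∨ p k = 0) ∧
        ∀ f : G ℚ → ℂ, S f →
          HasSum (fun k => ‖T5.innerD μ F f (p k)‖ ^ 2) (T5.innerD μ F f f).re

end Leaves

end Fermat.Agent.LT.T7.SDQ140

end
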