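import Mathlib
import Fermat.Agent.LT.T7.H140.DownBasisQSpec
import Fermat.Agent.LT.T7.H534.DownBasisTop

/-!
# Row LT, tower T7, NODE T7.L2Q.3.7 `SDQ140.DownBasisQC` -- THE ASSEMBLY (helper140)

OFF-MAIN.  PROVED: `downBasisQC_of140`, from the seven leaves of `DownBasisQSpec.lean` and the
fields `proj_down`, `class_down`, `comm_down`, `ekprod_down`, `u_level`, `comp` of `IsL2QData`;
`specDownQC_of_leaves140` = the node `L2Q.SpecDownQC F` from all its leaves.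
No hole, nothing assumed.  ADDITIVE.  Typed mirror of `LT/T7/H534/DownBasisTop.lean`
(helper534@9a502f8aa, byte-identical copy), whose generic lemmas are reused.
-/

set_option autoImplicit false
set_option linter.unusedSectionVars false
set_option linter.unusedVariables false

open AutomorphicForm IsDedekindDomain NumberField MeasureTheory
open scoped ComplexConjugate

noncomputable section

namespace Fermat.Agent.LT.T7.SDQ140

open Fermat.Agent.LT.H556 Fermat.Agent.LT.H556.A0 Fermat.Agent.LT.H670 Fermat.Agent.LT.T7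
open Fermat.Agent.LT.T7.L2Q

attribute [local instance] Fermat.Agent.LT.T5.instMeasurableSpaceG

/-- `W` as a submodule of the functions. -/
def wSubQ140 {ty : QWt} {𝔫 : Ideal (𝓞 ℚ)} {r : G ℚ} {u : HeightOneSpectrum (𝓞 ℚ)} (h : IsWSubQ ty 𝔫 r u) :
    Submodule ℂ (G ℚ → ℂ) where
  carrier := {χ | InWQ ty 𝔫 r u χ}
  zero_mem' := h.zeroW
  add_mem' := fun {a b} ha hb => h.addW a b ha hb
  smul_mem' := fun a f hf => h.smulW a f hf

theorem mem_wSubQ140 {ty : QWt} {𝔫 : Ideal (𝓞 ℚ)} {r : G ℚ} {u : HeightOneSpectrum (𝓞 ℚ)}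
    (h : IsWSubQ ty 𝔫 r u) (χ : G ℚ → ℂ) : χ ∈ wSubQ140 h ↔ InWQ ty 𝔫 r u χ := Iff.rfl

/-- The class spans are contained in `W`. -/
theorem clsSpan_leQ140 {ty : QWt} {𝔫 : Ideal (𝓞 ℚ)} {r : G ℚ} {u : HeightOneSpectrum (𝓞 ℚ)}
    (hS : IsWSubQ ty 𝔫 r u) (w : ℕ → G ℚ → ℂ) (J : Set ℕ) (c : ℕ → EigData ℚ)
    (heig : ∀ j, j ∈ J → InClsQ ty 𝔫 r u (c j) (w j)) (a : EigData ℚ) :
    SD534.clsSpan w J c a ≤ wSubQ140 hS := by
  unfold SD534.clsSpan
  rw [Submodule.span_le]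
  rintro f ⟨j, hj, -, rfl⟩
  exact (heig j hj).inW

/-- The members of a class span are eigenfunctions with the data of the class. -/
theorem inCls_of_memQ140 {ty : QWt} {𝔫 : Ideal (𝓞 ℚ)} {r : G ℚ} {u : HeightOneSpectrum (𝓞 ℚ)}
    (hS : IsWSubQ ty 𝔫 r u) (w : ℕ → G ℚ → ℂ) (J : Set ℕ) (c : ℕ → EigData ℚ)
    (heig : ∀ j, j ∈ J → InClsQ ty 𝔫 r u (c j) (w j)) (j₀ : ℕ) (hj₀ : j₀ ∈ J)
    (x : G ℚ → ℂ) (hx : x ∈ SD534.clsSpan w J c (c j₀)) : InClsQ ty 𝔫 r u (c j₀) x := by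
  unfold SD534.clsSpan at hx
  induction hx using Submodule.span_induction with
  | mem f hf =>
    obtain ⟨j, hj, hc, rfl⟩ := hf
    rw [← hc]
    exact heig j hj
  | zero =>
    have h := hS.smulC (c j₀) 0 (w j₀) (heig j₀ hj₀)
    rwa [zero_smul] at h
  | add f f' _ _ hf hf' => exact hS.addC (c j₀) f f' hf hf'
  | smul a f _ hf => exact hS.smulC (c j₀) a f hf

/-- Parseval for the interleaved sequence. -/
theorem complete_mixQ140 {ty : QWt} {μ : Measure (G ℚ)} {F : Set (G ℚ)} {r : G ℚ} {𝔫 : Ideal (𝓞 ℚ)}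
    {u : HeightOneSpectrum (𝓞 ℚ)} (hF : IsCuspFormQ ty μ F r 𝔫) (hS : IsWSubQ ty 𝔫 r u)
    (e p : ℕ → G ℚ → ℂ) (J : Set ℕ)
    (he : ∀ j, j ∈ J → InWQ ty 𝔫 r u (e j))
    (hePars : ∀ χ : G ℚ → ℂ, InWQ ty 𝔫 r u χ →
      HasSum (fun j : J => ‖T5.innerD μ F χ (e j)‖ ^ 2) (T5.innerD μ F χ χ).re)
    (hpV : ∀ n, InVQ ty 𝔫 r (p n))
    (hpW : ∀ n, ∀ χ : G ℚ → ℂ, InWQ ty 𝔫 r u χ → T5.innerD μ F (p n) χ = 0)
    (hpPars : ∀ f : G ℚ → ℂ, InVQ ty 𝔫 r f →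
      (∀ χ : G ℚ → ℂ, InWQ ty 𝔫 r u χ → T5.innerD μ F f χ = 0) →
      HasSum (fun n => ‖T5.innerD μ F f (p n)‖ ^ 2) (T5.innerD μ F f f).re)
    (f : G ℚ → ℂ) (hf : InVQ ty 𝔫 r f)
    (hproj : ∃ f₁ : G ℚ → ℂ, InWQ ty 𝔫 r u f₁ ∧
      ∀ χ : G ℚ → ℂ, InWQ ty 𝔫 r u χ → T5.innerD μ F (fun x => f x - f₁ x) χ = 0) :
    HasSum (fun i => ‖T5.innerD μ F f (SD534.mix534 e p J i)‖ ^ 2) (T5.innerD μ F f f).re := by
  classical
  obtain ⟨f₁, hf₁, hperp⟩ := hproj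
  set d : G ℚ → ℂ := fun x => f x - f₁ x with hd
  have hf₁V : InVQ ty 𝔫 r f₁ := hf₁.inV
  have hdV : InVQ ty 𝔫 r d := by
    have h1 : d = f + (-1 : ℂ) • f₁ := by
      funext x
      simp only [hd, Pi.add_apply, Pi.smul_apply, smul_eq_mul]
      ring
    rw [h1]
    exact hS.addV _ _ hf (hS.smulV _ _ hf₁V)
  have hfd : f = f₁ + d := by
    funext x
    simp only [hd, Pi.add_apply]
    ring
  -- the coefficients
  have hcoefW : ∀ χ : G ℚ → ℂ, InWQ ty 𝔫 r u χ → T5.innerD μ F f χ = T5.innerD μ F f₁ χ := by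
    intro χ hχ
    have h := hF.add_left f₁ d χ hf₁V hdV hχ.inV
    rw [← hfd] at h
    rw [h, hperp χ hχ, add_zero]
  have hcoefP : ∀ n, T5.innerD μ F f (p n) = T5.innerD μ F d (p n) := by
    intro n
    have h := hF.add_left f₁ d (p n) hf₁V hdV (hpV n)
    rw [← hfd] at h
    have h0 : T5.innerD μ F f₁ (p n) = 0 := by
      rw [hF.conj_symm (p n) f₁ (hpV n) hf₁V, hpW n f₁ hf₁, map_zero]
    rw [h, h0, zero_add]
  -- Pythagoras
  have hpyth : (T5.innerD μ F f f).re = (T5.innerD μ F f₁ f₁).re + (T5.innerD μ F d d).re := by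
    have h1 : T5.innerD μ F f f = T5.innerD μ F f₁ f + T5.innerD μ F d f := by
      have h := hF.add_left f₁ d f hf₁V hdV hf
      rwa [← hfd] at h
    have h2 : T5.innerD μ F f₁ f = conj (T5.innerD μ F f₁ f₁) := by
      rw [hF.conj_symm f f₁ hf hf₁V, hcoefW f₁ hf₁]
    have h3 : T5.innerD μ F d f = conj (T5.innerD μ F d d) := by
      rw [hF.conj_symm f d hf hdV]
      have h := hF.add_left f₁ d d hf₁V hdV hdV
      rw [← hfd] at h
      have h0 : T5.innerD μ F f₁ d = 0 := by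
        rw [hF.conj_symm d f₁ hdV hf₁V, hperp f₁ hf₁, map_zero]
      rw [h, h0, zero_add]
    rw [h1, h2, h3, Complex.add_re, Complex.conj_re, Complex.conj_re]
  rw [hpyth]
  refine HasSum.even_add_odd ?_ ?_
  · -- the even part
    have h1 := hePars f₁ hf₁
    have h2 := (hasSum_subtype_iff_indicator
      (f := fun n => ‖T5.innerD μ F f₁ (e n)‖ ^ 2) (s := J)).1 h1
    have h3 : (fun k => ‖T5.innerD μ F f (SD534.mix534 e p J (2 * k))‖ ^ 2)
        = J.indicator (fun n => ‖T5.innerD μ F f₁ (e n)‖ ^ 2) := by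
      funext n
      rw [SD534.mix_even534]
      by_cases hn : n ∈ J
      · rw [if_pos hn, Set.indicator_of_mem hn, hcoefW (e n) (he n hn)]
      · rw [if_neg hn, Set.indicator_of_notMem hn, SD534.innerD_zero_right534, norm_zero]
        norm_num
    rw [h3]
    exact h2
  · have h3 : (fun k => ‖T5.innerD μ F f (SD534.mix534 e p J (2 * k + 1))‖ ^ 2)
        = fun n => ‖T5.innerD μ F d (p n)‖ ^ 2 := by
      funext n
      rw [SD534.mix_odd534, hcoefP n]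
    rw [h3]
    exact hpPars d hdV hperp

variable {F : Type} [Field F] [NumberField F]

/-- **THE ASSEMBLY of the node DOWN-BASIS over `ℚ`, type `n`.** -/
theorem downBasisQC_of140 (ty : QWt) (hForm : CuspFormQC ty) (hSub : WSubQC ty)
    (hOps : OpsClassQC ty) (hWB : WBasisQC ty) (hSchur : SD534.SchurSeqC) (hReg : RegParamFnQC ty)
    (hSeq : SubSeqQC ty) : DownBasisQC F ty := by
  classical
  intro h3 hquad Φ hΦ hconst Dt hDt g hg H z hH hz
  have hcomp : IsCompData (Dt.comp g) := hDt.comp g hg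
  have hlev : Dt.𝔫 g ≠ ⊥ := hcomp.level_ne
  have hfr : T5.IsFrame Dt.R.μ Dt.R.F := hcomp.frame.frame
  have hray : T5.IsRayGen Dt.R.r := hcomp.frame.ray
  have hu : Dt.u.asIdeal ∣ Dt.𝔫 g := hDt.u_level g hg
  have htest : T5.IsTestFn (Dt.𝔫 g) ty.type (Dt.f ty g [] 0 0) :=
    (hDt.ekprod_down ty g [] 0 0 hg (fun x hx => absurd hx (List.not_mem_nil))).1
  have hkt : T5.IsKType ty.type := htest.ktype
  have hF := hForm Dt.R.μ Dt.R.F Dt.R.r (Dt.𝔫 g) hlev hkt hfr hray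
  have hS := hSub (Dt.𝔫 g) Dt.R.r Dt.u
  have hO := hOps (Dt.𝔫 g) Dt.R.r Dt.u H z hlev hkt hray hu hH hz
  obtain ⟨w, J, c, hW⟩ := hWB Dt.R.μ Dt.R.F Dt.R.r (Dt.𝔫 g) Dt.u hlev hkt hfr hray hu
  have hmemW : ∀ a, ∀ x ∈ SD534.clsSpan w J c a, InWQ ty (Dt.𝔫 g) Dt.R.r Dt.u x :=
    fun a x hx => clsSpan_leQ140 hS w J c hW.eig a hx
  -- the hypotheses of the Schur leaf
  have hadd : ∀ a : EigData ℚ, ∀ x ∈ SD534.clsSpan w J c a, ∀ y ∈ SD534.clsSpan w J c a,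
      iwOp Dt.u H (x + y) = iwOp Dt.u H x + iwOp Dt.u H y ∧
      T5.Rconv Dt.R.μ (Dt.f ty g [] 0 0) (x + y)
        = T5.Rconv Dt.R.μ (Dt.f ty g [] 0 0) x + T5.Rconv Dt.R.μ (Dt.f ty g [] 0 0) y ∧
      ∀ k : ℤ, shiftOp z k (x + y) = shiftOp z k x + shiftOp z k y := by
    intro a x hx y hy
    exact ⟨SD534.iwOp_add534 _ _ x y,
      hF.conv_add _ x y htest (hmemW a x hx).inV (hmemW a y hy).inV,
      fun k => SD534.shiftOp_add534 z k x y⟩
  have hsmul : ∀ (a : EigData ℚ) (t : ℂ), ∀ x ∈ SD534.clsSpan w J c a,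
      iwOp Dt.u H (t • x) = t • iwOp Dt.u H x ∧
      T5.Rconv Dt.R.μ (Dt.f ty g [] 0 0) (t • x) = t • T5.Rconv Dt.R.μ (Dt.f ty g [] 0 0) x ∧
      ∀ k : ℤ, shiftOp z k (t • x) = t • shiftOp z k x := by
    intro a t x hx
    exact ⟨SD534.iwOp_smul534 _ _ t x, hF.conv_smul _ t x htest (hmemW a x hx).inV,
      fun k => SD534.shiftOp_smul534 z k t x⟩
  have hpres : ∀ a : EigData ℚ, ∀ x ∈ SD534.clsSpan w J c a,
      iwOp Dt.u H x ∈ SD534.clsSpan w J c a ∧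
      T5.Rconv Dt.R.μ (Dt.f ty g [] 0 0) x ∈ SD534.clsSpan w J c a ∧
      ∀ k : ℤ, shiftOp z k x ∈ SD534.clsSpan w J c a := by
    intro a x hx
    by_cases hne : ∃ j, j ∈ J ∧ c j = a
    · obtain ⟨j₀, hj₀, rfl⟩ := hne
      have hxc := inCls_of_memQ140 hS w J c hW.eig j₀ hj₀ x hx
      exact ⟨hW.exhaust j₀ hj₀ _ (hO.iw _ _ hxc),
        hW.exhaust j₀ hj₀ _ (hDt.class_down ty g hg x (c j₀) hxc),
        fun k => hW.exhaust j₀ hj₀ _ (hO.shift _ _ k hxc)⟩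
    · rw [SD534.clsSpan_eq_bot534 w J c a hne] at hx ⊢
      rw [Submodule.mem_bot] at hx
      subst hx
      simp only [Submodule.mem_bot]
      exact ⟨SD534.iwOp_zero534 _ _, SD534.rconv_zero534 _ _, fun k => SD534.shiftOp_zero0_534 z k⟩
  have hcomm : ∀ a : EigData ℚ, ∀ x ∈ SD534.clsSpan w J c a,
      T5.Rconv Dt.R.μ (Dt.f ty g [] 0 0) (iwOp Dt.u H x)
        = iwOp Dt.u H (T5.Rconv Dt.R.μ (Dt.f ty g [] 0 0) x) ∧
      (∀ k : ℤ, T5.Rconv Dt.R.μ (Dt.f ty g [] 0 0) (shiftOp z k x)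
        = shiftOp z k (T5.Rconv Dt.R.μ (Dt.f ty g [] 0 0) x)) ∧
      ∀ k : ℤ, iwOp Dt.u H (shiftOp z k x) = shiftOp z k (iwOp Dt.u H x) := by
    intro a x hx
    have hc := hDt.comm_down ty g hg x (hmemW a x hx) H z hH hz
    exact ⟨funext hc.1, fun k => funext (hc.2 k), fun k => hO.comm x k⟩
  have hgrp : ∀ a : EigData ℚ, ∀ x ∈ SD534.clsSpan w J c a,
      shiftOp z 0 x = x ∧ ∀ k k' : ℤ, shiftOp z (k + k') x = shiftOp z k (shiftOp z k' x) :=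
    fun a x _ => ⟨SD534.shiftOp_zero534 z x, fun k k' => SD534.shiftOp_shiftOp534 z k k' x⟩
  obtain ⟨e, b, l, x, he, hnorm, horth, hpars, htri, hjoint⟩ :=
    hSchur (G ℚ → ℂ) (T5.innerD Dt.R.μ Dt.R.F) (wSubQ140 hS) (EigData ℚ) w J c
      (shiftOp z) (iwOp Dt.u H) (T5.Rconv Dt.R.μ (Dt.f ty g [] 0 0))
      (fun x hx y hy z hz => hF.add_left x y z (InWQ.inV hx) (InWQ.inV hy) (InWQ.inV hz))
      (fun a x hx y hy => hF.smul_left a x y (InWQ.inV hx) (InWQ.inV hy))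
      (fun x hx y hy => hF.conj_symm x y (InWQ.inV hx) (InWQ.inV hy))
      (fun x hx => hF.nonneg x (InWQ.inV hx))
      (fun x hx => hF.definite x (InWQ.inV hx))
      (fun j hj => (hW.eig j hj).inW)
      hW.norm_one hW.orth
      (fun χ hχ => hW.parseval χ hχ)
      hW.finite hadd hsmul hpres hcomm hgrp
  have heW : ∀ j, j ∈ J → InWQ ty (Dt.𝔫 g) Dt.R.r Dt.u (e j) := fun j hj => hmemW _ _ (he j hj)
  -- the complement
  obtain ⟨p, hpS, hporth, hpnorm, hppars⟩ :=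
    hSeq Dt.R.μ Dt.R.F Dt.R.r (Dt.𝔫 g) hlev hkt hfr hray
      (fun f => InVQ ty (Dt.𝔫 g) Dt.R.r f ∧
        ∀ χ : G ℚ → ℂ, InWQ ty (Dt.𝔫 g) Dt.R.r Dt.u χ → T5.innerD Dt.R.μ Dt.R.F f χ = 0)
      (fun f hf => hf.1)
      ⟨hS.zeroW.inV, fun χ _ => SD534.innerD_zero_left0_534 _ _ χ⟩
      (fun f f' hf hf' => ⟨hS.addV _ _ hf.1 hf'.1, fun χ hχ => by
        rw [hF.add_left f f' χ hf.1 hf'.1 hχ.inV, hf.2 χ hχ, hf'.2 χ hχ, add_zero]⟩)
      (fun a f hf => ⟨hS.smulV a f hf.1, fun χ hχ => by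
        rw [hF.smul_left a f χ hf.1 hχ.inV, hf.2 χ hχ, mul_zero]⟩)
  -- the sequence
  have hmixI : ∀ i, (i % 2 = 0 ∧ i / 2 ∈ J) → SD534.mix534 e p J i = e (i / 2) := by
    intro i hi
    unfold SD534.mix534
    rw [if_pos hi.1, if_pos hi.2]
  refine ⟨SD534.mix534 e p J, {i | i % 2 = 0 ∧ i / 2 ∈ J}, fun i => c (i / 2), fun i => b (i / 2),
    fun i => l (i / 2), fun i => x (i / 2), Real.sqrt (Ideal.absNorm Dt.u.asIdeal : ℝ),
    ⟨⟨?_, ?_, ?_, ?_⟩, ?_, ?_, ?_, ?_, ?_, ?_⟩⟩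
  · -- cusp
    intro i
    rcases SD534.mix_cases534 e p J i with ⟨n, -, hn, h⟩ | ⟨n, -, -, h⟩ | ⟨n, -, h⟩
    · rw [h]; exact (heW n hn).inV
    · rw [h]; exact hS.zeroW.inV
    · rw [h]; exact (hpS n).1
  · -- orth
    intro i j hij
    rcases SD534.mix_cases534 e p J i with ⟨n, hi, hn, h⟩ | ⟨n, hi, -, h⟩ | ⟨n, hi, h⟩ <;>
    rcases SD534.mix_cases534 e p J j with ⟨n', hj, hn', h'⟩ | ⟨n', hj, -, h'⟩ | ⟨n', hj, h'⟩ <;>
    rw [h, h']
    · exact horth n hn n' hn' (fun hnn => hij (by rw [hi, hj, hnn]))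
    · exact SD534.innerD_zero_right534 _ _ _
    · rw [hF.conj_symm (p n') (e n) (hpS n').1 (heW n hn).inV, (hpS n').2 (e n) (heW n hn),
        map_zero]
    · exact SD534.innerD_zero_left0_534 _ _ _
    · exact SD534.innerD_zero_left0_534 _ _ _
    · exact SD534.innerD_zero_left0_534 _ _ _
    · exact (hpS n).2 (e n') (heW n' hn')
    · exact SD534.innerD_zero_right534 _ _ _
    · exact hporth n n' (fun hnn => hij (by rw [hi, hj, hnn]))
  · -- norm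
    intro i
    rcases SD534.mix_cases534 e p J i with ⟨n, -, hn, h⟩ | ⟨n, -, -, h⟩ | ⟨n, -, h⟩
    · rw [h]; exact Or.inl (hnorm n hn)
    · rw [h]; exact Or.inr (fun _ => rfl)
    · rw [h]
      rcases hpnorm n with h1 | h0
      · exact Or.inl h1
      · exact Or.inr (fun y => by rw [h0]; rfl)
  · -- complete
    intro f hf
    exact complete_mixQ140 hF hS e p J heW hpars (fun n => (hpS n).1) (fun n => (hpS n).2)
      (fun f hf h => hppars f ⟨hf, h⟩) f hf (hDt.proj_down ty g hg f hf)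
  · -- perp
    intro i hi χ hχ
    rcases SD534.mix_cases534 e p J i with ⟨n, hin, hn, h⟩ | ⟨n, -, -, h⟩ | ⟨n, -, h⟩
    · exfalso
      apply hi
      refine ⟨by omega, ?_⟩
      have : i / 2 = n := by omega
      rw [this]
      exact hn
    · rw [h]; exact SD534.innerD_zero_left0_534 _ _ _
    · rw [h]; exact (hpS n).2 χ hχ
  · -- eig
    intro i hi
    rw [hmixI i hi]
    exact inCls_of_memQ140 hS w J c hW.eig (i / 2) hi.2 _ (he (i / 2) hi.2)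
  · -- ne
    intro i hi
    rw [hmixI i hi]
    by_contra hcon
    have h0 : e (i / 2) = 0 := by
      funext y
      by_contra hy
      exact hcon ⟨y, hy⟩
    have h1 := hnorm (i / 2) hi.2
    rw [h0, SD534.innerD_zero_left0_534] at h1
    exact zero_ne_one h1
  · -- unit
    intro i hi
    exact hW.unit (i / 2) hi.2
  · -- tri
    intro i hi k m
    rw [hmixI i hi]
    exact htri (i / 2) hi.2 k m
  · -- reg
    intro i hi
    obtain ⟨y, hy, hy0, hyZ, hyU⟩ := hjoint (i / 2) hi.2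
    refine hReg Dt.R.μ Dt.R.F Dt.R.r (Dt.𝔫 g) Dt.u H z hlev hkt hfr hray hu hH hz y _ _
      (hmemW _ y hy) ?_ hyZ hyU
    by_contra hcon
    apply hy0
    funext t
    by_contra ht
    exact hcon ⟨t, ht⟩


/-- **THE NODE T7.L2Q.3 FROM ALL ITS LEAVES.** -/
theorem specDownQC_of_leaves140 {F : Type} [Field F] [NumberField F]
    (hStf : ∀ n, StfQC n) (hIw : SD534.IwSysC ℚ) (hSph : ∀ n, SphFormQC n)
    (hBC : ∀ n, BCDataQC F n) (hBU : ∀ n, BCUnitQC F n) (hReal : ∀ n, RealQC n)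
    (hUni : T6.Inf.UpUnitaryC) (hVal : T6.Inf.SphValuesC) (hPar : T6.Inf.Sph0ParamC)
    (hW1 : RealWtOneC) (hForm : ∀ n, CuspFormQC n) (hSub : ∀ n, WSubQC n)
    (hOps : ∀ n, OpsClassQC n) (hWB : ∀ n, WBasisQC n) (hSchur : SD534.SchurSeqC)
    (hReg : ∀ n, RegParamFnQC n) (hSeq : ∀ n, SubSeqQC n) : SpecDownQC F :=
  specDownQC_of140 hStf hIw hSph hBC hBU hReal hUni hVal hPar hW1
    (fun n => downBasisQC_of140 n (hForm n) (hSub n) (hOps n) (hWB n) hSchur (hReg n) (hSeq n))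

end Fermat.Agent.LT.T7.SDQ140

end
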