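import Mathlib
import Fermat.Agent.LT.T7.H140.DownBasisQTop
import Fermat.Agent.LT.T7.H341.WBasisQTop
import Fermat.Agent.LT.T7.H413.StfQ
import Fermat.Agent.LT.T7.H729.SphFormQ
import Fermat.Agent.LT.T7.H476.BCDataQ
import Fermat.Agent.LT.T7.H69.BCUnitQ
import Fermat.Agent.LT.T7.H190.RealWtOne
import Fermat.Agent.LT.T7.H587.RealQ
import Fermat.Agent.LT.T7.H122.CuspFormQ
import Fermat.Agent.LT.T7.H250.WSubQ
import Fermat.Agent.LT.T7.H802.OpsClassQ
import Fermat.Agent.LT.T7.H16.RegParamLeavesQ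
import Fermat.Agent.LT.T7.H886.SubSeqQ
import Fermat.Agent.LT.T7.H157.V2SubQ
import Fermat.Agent.LT.T7.H247.IwProjQ
import Fermat.Agent.LT.T7.H582.ProjBasis
import Fermat.Agent.LT.T7.H510.IwSys
import Fermat.Agent.LT.T7.H228.SchurSeqTop
import Fermat.Agent.LT.T6.Inf.H19.SphC
import Fermat.Agent.LT.T6.Inf.H19.SphValues
import Fermat.Agent.LT.T6.Inf.H502.UpUnitary
import Fermat.Agent.LT.T6.H888.ArchClass

/-!
# Row LT, tower T7, quadratic step, registry row 2153 = NODE `L2Q.SpecDownQC`: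
# the INTEGRATION of the delivered leaves (helper140)

OFF-MAIN.  Additive, new names only (suffix `140`), no definition, no hole, nothing assumed
except the ONE node which is still open.

`specDownQC_of_v2basis140 : (∀ n, WBQ341.V2BasisQC341 n) → ∀ F, L2Q.SpecDownQC F`.

Plugged (each one VERBATIM, by the theorem of its owner; this file compiles = the check):

* level 1 (`H140/SpecDownQSpec.lean`): `StfQC` = `H413.stfQC_all413`; `SD534.IwSysC ℚ` =
  `H510.iwSysC_h510 ℚ`; `SphFormQC` = `SphQ729.sphFormQC729` on `T6.H888.archClassC_closed888`;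
  `BCDataQC` = `H476.bcDataQC476`; `BCUnitQC` = `H69.bcUnitQC69`; `RealQC` = `H587.realQC587`;
  `RealWtOneC` = `H190.realWtOneC190`; `T6.Inf.UpUnitaryC` = `T6.Inf.H502.upUnitaryC502`;
  `T6.Inf.SphValuesC` = `T6.Inf.H19.sphValuesC19`; `T6.Inf.Sph0ParamC` =
  `T6.Inf.H19.sph0ParamC19`;
* level 2 (`H140/DownBasisQSpec.lean`): `CuspFormQC` = `H122.cuspFormQC122`; `WSubQC` =
  `H250.wSubQC250`; `OpsClassQC` = `H802.opsClassQC802`; `SD534.SchurSeqC` =
  `H228.schurSeqC228`; `RegParamFnQC` = `H16.regParamFnQC16`; `SubSeqQC` = `H886.subSeqQC886`;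
* level 3 (`H341/WBasisQSpec.lean`, the cut of record of the node `WBasisQC`, helper341):
  `V2SubQC341` = `H157.v2SubQC157`; `IwProjQC341` = `H247.iwProjQC247`; `SD534.ProjBasisC` =
  `H582.projBasisC582`; assembly `WBQ341.wBasisQC_of341`.

STILL OPEN: the node `WBQ341.V2BasisQC341 n` (registry row 2445).
-/

set_option autoImplicit false

namespace Fermat.Agent.LT.T7.SDQ140

open Fermat.Agent.LT

/-- The node `WBasisQC n` from the ONE node which is still open. -/
theorem wBasisQC_of_v2basis140 (n : L2Q.QWt) (hV2B : WBQ341.V2BasisQC341 n) : WBasisQC n :=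
  WBQ341.wBasisQC_of341 n (H122.cuspFormQC122 n) (H250.wSubQC250 n) (H157.v2SubQC157 n) hV2B
    (H247.iwProjQC247 n) H582.projBasisC582

/-- The node `DownBasisQC F n` from the ONE node which is still open. -/
theorem downBasisQC_of_v2basis140 (F : Type) [Field F] [NumberField F] (n : L2Q.QWt)
    (hV2B : WBQ341.V2BasisQC341 n) : DownBasisQC F n :=
  downBasisQC_of140 n (H122.cuspFormQC122 n) (H250.wSubQC250 n) (H802.opsClassQC802 n)
    (wBasisQC_of_v2basis140 n hV2B) H228.schurSeqC228 (H16.regParamFnQC16 n)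
    (H886.subSeqQC886 n)

/-- **Registry row 2153, `L2Q.SpecDownQC F`, from the ONE node which is still open.** -/
theorem specDownQC_of_v2basis140 (hV2B : ∀ n : L2Q.QWt, WBQ341.V2BasisQC341 n)
    (F : Type) [Field F] [NumberField F] : L2Q.SpecDownQC F :=
  specDownQC_of140 H413.stfQC_all413 (H510.iwSysC_h510 ℚ)
    (SphQ729.sphFormQC729 T6.H888.archClassC_closed888)
    (fun n => H476.bcDataQC476 F n) (fun n => H69.bcUnitQC69 F n) H587.realQC587
    T6.Inf.H502.upUnitaryC502 T6.Inf.H19.sphValuesC19 T6.Inf.H19.sph0ParamC19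
    H190.realWtOneC190 (fun n => downBasisQC_of_v2basis140 F n (hV2B n))

end Fermat.Agent.LT.T7.SDQ140
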