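import Mathlib
import Fermat.Agent.LT.T7.H341.WBasisQSpec
import Fermat.Agent.LT.T2.AdapterW
import Fermat.Agent.LT.T2.H291.AdmissibleT
import Fermat.Agent.LT.T7.H19.MeanBoundQ

/-!
# Row LT, tower T7, NODE T7.L2Q.3.7.4.2 `WBQ341.V2BasisQC341 n` (helper140, spare of row 2445)

OFF-MAIN.  Complete proof, nothing assumed.  ADDITIVE (new names only, all ending in `140`).
Spec: `Fermat/Agent/LT/T7/H341/WBasisQSpec.lean` (helper341@5d9a56aeb), byte-identical copy.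

    v2BasisQC140 (n) : WBQ341.V2BasisQC341 n

Model: `LT/T7/H613/V2Basis.lean` (helper613, the cyclic node `SD534.V2BasisC`).
Assets: the tower T2 in the class of T5 (`T2.cuspSpecT_closed`, `T2.opsT_closed`,
`T2.pairDefiniteT_closed`, the pre-Hilbert space `T2.H560.V560`), the admissibility at the real
places `T2.H291.finite_meanClassT291`, `countable_indexT291` (helper291), the adapter of the
circle means `T7.H19.meanEigQ_iff19` and the bound `norm_meanEigRT_le19` (helper19).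

## Proof

`T2.cuspSpecT_closed` for `(ℚ, 𝔫, n.type)` gives an orthonormal complete family `e j`
(`j : ι`) of joint eigen-cusp-functions of the class `(𝔫, n.type, r)` with central characters
`c j`.  The members which are invariant under the positive scalars at the real place are kept.

* A member of `V₂` is orthogonal to the members which are not invariant (the central shifts
  are unitary: `T2.OpsAdjT`), so Parseval in `V₂` only sees the members which are kept.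
* NORMALISED DATA: `a`, `b` are replaced by `0` at the places dividing `𝔫`, `m w t` by `0` for
  `t ≤ 0`.
* FINITE CLASSES: `finite_meanClassT291`.
* EXHAUSTION: a member `ψ` of `V₂` with the data of `j₀` is orthogonal to every member with
  other data (`T_v* = S_v⁻¹ T_v`, `S_v` unitary, the circle means self-adjoint); the difference
  of `ψ` and its component in the class is orthogonal to every `e j`, hence `0` (Parseval and
  definiteness, in the pre-Hilbert space of the class).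
-/

set_option autoImplicit false
set_option linter.unusedSectionVars false
set_option linter.unusedVariables false

open AutomorphicForm IsDedekindDomain NumberField MeasureTheory
open scoped ComplexConjugate

noncomputable section

namespace Fermat.Agent.LT.T7.V2Q140

open Fermat.Agent.LT.H556 Fermat.Agent.LT.H556.A0 Fermat.Agent.LT Fermat.Agent.LT.T7
open Fermat.Agent.LT.T7.L2Q Fermat.Agent.LT.T7.SDQ140 Fermat.Agent.LT.T7.WBQ341

attribute [local instance] Fermat.Agent.LT.T2.borelG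

/-! ## 1. Adapters between the class of T5 and the class `T` of T2 -/

theorem isKType2_140 {τ : G ℚ → ℂ} (h : T5.IsKType τ) : T2.IsKType τ :=
  ⟨h.norm_one, h.mul, h.cont⟩

theorem isCuspT_of5_140 {𝔫 : Ideal (𝓞 ℚ)} {τ : G ℚ → ℂ} {r : G ℚ} {ψ : G ℚ → ℂ}
    (h : T5.IsCuspFn 𝔫 τ r ψ) : T2.IsCuspT 𝔫 τ r ψ :=
  ⟨⟨h.cont, h.bdd, h.aut.left_inv, h.aut.level_inv, h.aut.arch_compact, h.aut.ray⟩, h.cuspidal⟩

theorem isCusp5_ofT_140 {𝔫 : Ideal (𝓞 ℚ)} {τ : G ℚ → ℂ} {r : G ℚ} {ψ : G ℚ → ℂ}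
    (h : T2.IsCuspT 𝔫 τ r ψ) : T5.IsCuspFn 𝔫 τ r ψ :=
  ⟨h.aut.cont, h.aut.bdd,
    ⟨h.aut.left_inv, h.aut.level_inv, h.aut.arch_compact, h.aut.ray⟩, h.cuspidal⟩

theorem isReal_140 (w : InfinitePlace ℚ) : w.IsReal := by
  rw [Subsingleton.elim w Rat.infinitePlace]
  exact Rat.isReal_infinitePlace

theorem exists_torus140 (w : InfinitePlace ℚ) (t : ℝ) : ∃ a : G ℚ, T2.IsTorusAt w t a := by
  obtain ⟨Y, hY⟩ := H19.exists_circleR0_19 w t
  refine ⟨Y 0, (hY 0).1, ?_⟩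
  rw [(hY 0).2, H19.rotY_zero19, one_mul]

/-- A function of norm one is not zero. -/
theorem exists_ne_zero140 (F : T2.Frame ℚ) {u : G ℚ → ℂ} (h : T2.pair F u u = 1) :
    ∃ y : G ℚ, u y ≠ 0 := by
  by_contra hne
  push Not at hne
  have e : u = fun _ => 0 := funext hne
  rw [e] at h
  have h0 : T2.pair F (fun _ : G ℚ => (0 : ℂ)) (fun _ : G ℚ => (0 : ℂ)) = 0 := by
    show (∫ g in F.D, (0 : ℂ) * (starRingEnd ℂ) (0 : ℂ) ∂F.μ) = 0
    simp
  rw [h0] at h
  exact zero_ne_one h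

/-! ## 2. Orthogonality of eigenfunctions with different data -/

section Orth

variable {𝔫 : Ideal (𝓞 ℚ)} {τ : G ℚ → ℂ}

theorem sqrt_absNorm_ne_zero140 (v : HeightOneSpectrum (𝓞 ℚ)) :
    ((Real.sqrt (Ideal.absNorm v.asIdeal : ℝ) : ℝ) : ℂ) ≠ 0 := by
  have h0 : Ideal.absNorm v.asIdeal ≠ 0 := by
    intro h
    exact v.ne_bot (Ideal.absNorm_eq_zero_iff.1 h)
  have h1 : (0 : ℝ) < (Ideal.absNorm v.asIdeal : ℝ) := by
    exact_mod_cast Nat.pos_of_ne_zero h0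
  exact_mod_cast (Real.sqrt_pos.2 h1).ne'

theorem shift_inv_eig140 {ψ : G ℚ → ℂ} {z : G ℚ} {b : ℂ} (hb : b ≠ 0)
    (h : ∀ g : G ℚ, ψ (g * z) = b * ψ g) (g : G ℚ) : ψ (g * z⁻¹) = b⁻¹ * ψ g := by
  have h1 := h (g * z⁻¹)
  rw [inv_mul_cancel_right] at h1
  rw [h1, ← mul_assoc, inv_mul_cancel₀ hb, one_mul]

theorem orth_of_a140 (hOA : T2.OpsAdjT ℚ 𝔫 τ) (R : T2.FrameR ℚ) {φ ψ : G ℚ → ℂ}
    (hφ : T2.IsCuspT 𝔫 τ R.r φ) (hψ : T2.IsCuspT 𝔫 τ R.r ψ) {v : HeightOneSpectrum (𝓞 ℚ)}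
    (hv : ¬ v.asIdeal ∣ 𝔫) {a b a' b' : ℂ} (h1 : IsHeckeEigenAt φ v a b)
    (h2 : IsHeckeEigenAt ψ v a' b') (hb' : ‖b'‖ = 1) (ha' : conj a' = a' * conj b')
    (hne : a ≠ a') : T2.pair R.F φ ψ = 0 := by
  obtain ⟨⟨H, hH⟩, -, ⟨z, hz⟩⟩ := (T1.t1Out ℚ).heckeCoset v
  have key := (hOA R).2.2.1 v hv H z hH hz φ ψ hφ hψ
  have hb0 : b' ≠ 0 := by
    intro h
    rw [h, norm_zero] at hb'
    exact zero_ne_one hb'
  have hcb0 : conj b' ≠ 0 := fun h => hb0 ((map_eq_zero _).1 h)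
  set q : ℂ := ((Real.sqrt (Ideal.absNorm v.asIdeal : ℝ) : ℝ) : ℂ) with hq
  have hq0 : q ≠ 0 := sqrt_absNorm_ne_zero140 v
  have e1 : T2.heckeSum H φ = (q * a) • φ := by
    funext g
    exact h1.1 H hH g
  have e2 : T2.shift z⁻¹ (T2.heckeSum H ψ) = (q * a' * b'⁻¹) • ψ := by
    funext g
    show (∑ h ∈ H, ψ (g * z⁻¹ * h)) = (q * a' * b'⁻¹) * ψ g
    rw [h2.1 H hH (g * z⁻¹), shift_inv_eig140 hb0 (h2.2 z hz) g]
    ring
  rw [e1, e2, T2.H566.pair_smul_left566, T2.H566.pair_smul_right566] at key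
  have e3 : conj (q * a' * b'⁻¹) = q * a' := by
    rw [map_mul, map_mul, map_inv₀, ha', hq, Complex.conj_ofReal, mul_assoc, mul_assoc,
      mul_inv_cancel₀ hcb0, mul_one]
  rw [e3] at key
  have h3 : q * (a - a') * T2.pair R.F φ ψ = 0 := by linear_combination key
  rcases mul_eq_zero.1 h3 with h4 | h4
  · rcases mul_eq_zero.1 h4 with h5 | h5
    · exact absurd h5 hq0
    · exact absurd (sub_eq_zero.1 h5) hne
  · exact h4

/-- Unitarity of a shift and eigenvalues `b ≠ b'`, `‖b'‖ = 1`. -/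
theorem orth_of_shift140 (F : T2.Frame ℚ) {φ ψ : G ℚ → ℂ} {z : G ℚ}
    (key : T2.pair F (T2.shift z φ) (T2.shift z ψ) = T2.pair F φ ψ) {b b' : ℂ}
    (h1 : ∀ g : G ℚ, φ (g * z) = b * φ g) (h2 : ∀ g : G ℚ, ψ (g * z) = b' * ψ g)
    (hb' : ‖b'‖ = 1) (hne : b ≠ b') : T2.pair F φ ψ = 0 := by
  have e1 : T2.shift z φ = b • φ := by
    funext g
    exact h1 g
  have e2 : T2.shift z ψ = b' • ψ := by
    funext g
    exact h2 g
  rw [e1, e2, T2.H566.pair_smul_left566, T2.H566.pair_smul_right566] at key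
  have hbb : conj b' * b' = 1 := by
    rw [mul_comm, Complex.mul_conj, Complex.normSq_eq_norm_sq, hb', one_pow, Complex.ofReal_one]
  by_contra hp
  have h3 : b * conj b' = 1 := by
    have h4 : (b * conj b' - 1) * T2.pair F φ ψ = 0 := by linear_combination key
    rcases mul_eq_zero.1 h4 with h5 | h5
    · exact sub_eq_zero.1 h5
    · exact absurd h5 hp
  apply hne
  calc b = b * (conj b' * b') := by rw [hbb, mul_one]
    _ = (b * conj b') * b' := by ring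
    _ = b' := by rw [h3, one_mul]

theorem orth_of_b140 (hOA : T2.OpsAdjT ℚ 𝔫 τ) (R : T2.FrameR ℚ) {φ ψ : G ℚ → ℂ}
    (hφ : T2.IsCuspT 𝔫 τ R.r φ) (hψ : T2.IsCuspT 𝔫 τ R.r ψ) {v : HeightOneSpectrum (𝓞 ℚ)}
    (hv : ¬ v.asIdeal ∣ 𝔫) {a b a' b' : ℂ} (h1 : IsHeckeEigenAt φ v a b)
    (h2 : IsHeckeEigenAt ψ v a' b') (hb' : ‖b'‖ = 1) (hne : b ≠ b') :
    T2.pair R.F φ ψ = 0 := by
  obtain ⟨-, -, ⟨z, hz⟩⟩ := (T1.t1Out ℚ).heckeCoset v
  exact orth_of_shift140 R.F ((hOA R).1 v hv z hz φ ψ hφ hψ) (h1.2 z hz) (h2.2 z hz) hb' hne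

/-- A function which is invariant under the positive scalars at the real place is orthogonal
to an eigenfunction of the central shifts which is not. -/
theorem orth_of_central140 (hOA : T2.OpsAdjT ℚ 𝔫 τ) (R : T2.FrameR ℚ) {φ ψ : G ℚ → ℂ}
    (hφ : T2.IsCuspT 𝔫 τ R.r φ) (hψ : T2.IsCuspT 𝔫 τ R.r ψ)
    (hinv : T2.H291.IsScInvT291 φ) {c : G ℚ → ℂ}
    (hc : ∀ (w : InfinitePlace ℚ) (z : G ℚ), IsArchPosScalar w z →
      ∀ g : G ℚ, ψ (g * z) = c z * ψ g)
    (hu : ∀ (w : InfinitePlace ℚ) (z : G ℚ), IsArchPosScalar w z → ‖c z‖ = 1)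
    (hnot : ¬ T2.H291.IsScInvT291 ψ) : T2.pair R.F φ ψ = 0 := by
  have hnot' : ¬ ∀ (w : InfinitePlace ℚ) (z : G ℚ), IsArchPosScalar w z →
      ∀ g : G ℚ, ψ (g * z) = ψ g := hnot
  push Not at hnot'
  obtain ⟨w, z, hz, g, hg⟩ := hnot'
  have hcz : (1 : ℂ) ≠ c z := by
    intro h
    apply hg
    rw [hc w z hz g, ← h, one_mul]
  exact orth_of_shift140 R.F ((hOA R).2.1 w z hz φ ψ hφ hψ)
    (fun g => by rw [hinv w z hz g, one_mul]) (hc w z hz) (hu w z hz) hcz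

theorem orth_of_m140 (hOA : T2.OpsAdjT ℚ 𝔫 τ) (R : T2.FrameR ℚ) {φ ψ : G ℚ → ℂ}
    (hφ : T2.IsCuspT 𝔫 τ R.r φ) (hψ : T2.IsCuspT 𝔫 τ R.r ψ) {w : InfinitePlace ℚ}
    {t : ℝ} (ht : 0 < t) {m m' : ℝ → ℂ}
    (h1 : T2.MeanEigRT τ φ w m) (h2 : T2.MeanEigRT τ ψ w m') (hm' : (m' t).im = 0)
    (hne : m t ≠ m' t) : T2.pair R.F φ ψ = 0 := by
  obtain ⟨k, hk⟩ := T2.H291.exists_rotT291 w
  obtain ⟨a, ha⟩ := exists_torus140 w t
  have key := (hOA R).2.2.2.2 w (isReal_140 w) t ht k a hk ha φ ψ hφ hψ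
  have e1 : T2.circleMeanT τ k a φ = (m t) • φ := by
    funext g
    exact h1 t ht k a hk ha g
  have e2 : T2.circleMeanT τ k a ψ = (m' t) • ψ := by
    funext g
    exact h2 t ht k a hk ha g
  rw [e1, e2, T2.H566.pair_smul_left566, T2.H566.pair_smul_right566] at key
  have e3 : conj (m' t) = m' t := Complex.conj_eq_iff_im.2 hm'
  rw [e3] at key
  have h3 : (m t - m' t) * T2.pair R.F φ ψ = 0 := by linear_combination key
  rcases mul_eq_zero.1 h3 with h4 | h4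
  · exact absurd (sub_eq_zero.1 h4) hne
  · exact h4

end Orth

/-! ## 3. Normalised data -/

theorem eigData_ext140 {c c' : EigData ℚ} (ha : c.a = c'.a) (hb : c.b = c'.b)
    (hm : c.m = c'.m) : c = c' := by
  cases c
  cases c'
  simp only at ha hb hm
  subst ha hb hm
  rfl

open Classical in
/-- The normalised eigen-data: `0` at the places dividing the level and at the radii `t ≤ 0`. -/
def normDataQ140 (𝔫 : Ideal (𝓞 ℚ)) (a b : HeightOneSpectrum (𝓞 ℚ) → ℂ)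
    (m : InfinitePlace ℚ → ℝ → ℂ) : EigData ℚ where
  a := fun v => if v.asIdeal ∣ 𝔫 then 0 else a v
  b := fun v => if v.asIdeal ∣ 𝔫 then 0 else b v
  m := fun w t => if 0 < t then m w t else 0

section Norm

variable {𝔫 : Ideal (𝓞 ℚ)} {a b : HeightOneSpectrum (𝓞 ℚ) → ℂ} {m : InfinitePlace ℚ → ℝ → ℂ}

theorem normData_a140 {v : HeightOneSpectrum (𝓞 ℚ)} (hv : ¬ v.asIdeal ∣ 𝔫) :
    (normDataQ140 𝔫 a b m).a v = a v := if_neg hv

theorem normData_b140 {v : HeightOneSpectrum (𝓞 ℚ)} (hv : ¬ v.asIdeal ∣ 𝔫) :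
    (normDataQ140 𝔫 a b m).b v = b v := if_neg hv

theorem normData_a_bad140 {v : HeightOneSpectrum (𝓞 ℚ)} (hv : v.asIdeal ∣ 𝔫) :
    (normDataQ140 𝔫 a b m).a v = 0 := if_pos hv

theorem normData_b_bad140 {v : HeightOneSpectrum (𝓞 ℚ)} (hv : v.asIdeal ∣ 𝔫) :
    (normDataQ140 𝔫 a b m).b v = 0 := if_pos hv

theorem normData_m140 {w : InfinitePlace ℚ} {t : ℝ} (ht : 0 < t) :
    (normDataQ140 𝔫 a b m).m w t = m w t := if_pos ht

theorem normData_m_bad140 {w : InfinitePlace ℚ} {t : ℝ} (ht : ¬ 0 < t) :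
    (normDataQ140 𝔫 a b m).m w t = 0 := if_neg ht

/-- The circle means only see the positive radii. -/
theorem meanEigRT_norm140 {τ : G ℚ → ℂ} {ψ : G ℚ → ℂ} {w : InfinitePlace ℚ}
    (h : T2.MeanEigRT τ ψ w (m w)) : T2.MeanEigRT τ ψ w ((normDataQ140 𝔫 a b m).m w) := by
  intro t ht k x hk hx g
  rw [normData_m140 ht]
  exact h t ht k x hk hx g

theorem meanEigRT_of_norm140 {τ : G ℚ → ℂ} {ψ : G ℚ → ℂ} {w : InfinitePlace ℚ}
    (h : T2.MeanEigRT τ ψ w ((normDataQ140 𝔫 a b m).m w)) : T2.MeanEigRT τ ψ w (m w) := by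
  intro t ht k x hk hx g
  have h1 := h t ht k x hk hx g
  rw [normData_m140 ht] at h1
  exact h1

end Norm

/-! ## 4. The node -/

section Node

variable {n : QWt} {𝔫 : Ideal (𝓞 ℚ)}

/-- Two eigenfunctions which are not orthogonal have the same normalised data. -/
theorem normData_eq_of_pair_ne140 (hOA : T2.OpsAdjT ℚ 𝔫 n.type) (R : T2.FrameR ℚ)
    {ψ e : G ℚ → ℂ} {a₀ b₀ a b : HeightOneSpectrum (𝓞 ℚ) → ℂ}
    {m₀ m : InfinitePlace ℚ → ℝ → ℂ}
    (hψ : InCls2Q341 n 𝔫 R.r (normDataQ140 𝔫 a₀ b₀ m₀) ψ)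
    (hc : T2.IsCuspT 𝔫 n.type R.r e)
    (hh : ∀ v : HeightOneSpectrum (𝓞 ℚ), ¬ v.asIdeal ∣ 𝔫 → IsHeckeEigenAt e v (a v) (b v))
    (hm : ∀ w : InfinitePlace ℚ, T2.MeanEigRT n.type e w (m w))
    (hb : ∀ v : HeightOneSpectrum (𝓞 ℚ), ¬ v.asIdeal ∣ 𝔫 → ‖b v‖ = 1)
    (ha : ∀ v : HeightOneSpectrum (𝓞 ℚ), ¬ v.asIdeal ∣ 𝔫 → conj (a v) = a v * conj (b v))
    (hre : ∀ (w : InfinitePlace ℚ) (t : ℝ), 0 < t → (m w t).im = 0)
    (hp : T2.pair R.F ψ e ≠ 0) :
    normDataQ140 𝔫 a b m = normDataQ140 𝔫 a₀ b₀ m₀ := by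
  have hψc : T2.IsCuspT 𝔫 n.type R.r ψ := isCuspT_of5_140 hψ.inv.cusp
  have hψm : ∀ w : InfinitePlace ℚ,
      T2.MeanEigRT n.type ψ w ((normDataQ140 𝔫 a₀ b₀ m₀).m w) := fun w =>
    (H19.meanEigQ_iff_of_cuspT19 hψc w _).2 (hψ.mean w)
  refine eigData_ext140 (funext fun v => ?_) (funext fun v => ?_)
    (funext fun w => funext fun t => ?_)
  · by_cases hv : v.asIdeal ∣ 𝔫
    · rw [normData_a_bad140 hv, normData_a_bad140 hv]
    · by_contra hne
      rw [normData_a140 hv] at hne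
      exact hp (orth_of_a140 hOA R hψc hc hv (hψ.hecke v hv) (hh v hv) (hb v hv) (ha v hv)
        (fun h => hne h.symm))
  · by_cases hv : v.asIdeal ∣ 𝔫
    · rw [normData_b_bad140 hv, normData_b_bad140 hv]
    · by_contra hne
      rw [normData_b140 hv] at hne
      exact hp (orth_of_b140 hOA R hψc hc hv (hψ.hecke v hv) (hh v hv) (hb v hv)
        (fun h => hne h.symm))
  · by_cases ht : 0 < t
    · by_contra hne
      rw [normData_m140 ht] at hne
      exact hp (orth_of_m140 hOA R hψc hc ht (hψm w) (hm w) (hre w t ht)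
        (fun h => hne h.symm))
    · rw [normData_m_bad140 ht, normData_m_bad140 ht]

/-- The function of a finite combination in the pre-Hilbert space of the class. -/
theorem fn_sum140 (d : T2.H560.Cls560 ℚ) {ι : Type} (y : ι → T2.H560.V560 d) (coef : ι → ℂ)
    (T : Finset ι) :
    T2.H560.fn560 (∑ j ∈ T, coef j • y j) = ∑ j ∈ T, coef j • T2.H560.fn560 (y j) := by
  classical
  induction T using Finset.induction_on with
  | empty =>
    rw [Finset.sum_empty, Finset.sum_empty]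
    rfl
  | insert j T hj ih =>
    rw [Finset.sum_insert hj, Finset.sum_insert hj, T2.H560.fn560_add, ih, T2.H560.fn560_smul]
    rfl

/-- **NODE WBQ.2 = `V₂`-BASIS over `ℚ`, type `n`** (`WBQ341.V2BasisQC341 n`). -/
theorem v2BasisQC140 (n : QWt) : V2BasisQC341 n := by
  classical
  intro μ F r 𝔫 h𝔫 hτ5 hF hr
  have hτ : T2.IsKType n.type := isKType2_140 hτ5
  have hreal : ∀ w : InfinitePlace ℚ, w.IsReal := isReal_140
  have hR5 : T7.IsFrame5 (⟨μ, F, r⟩ : T7.Frame5 ℚ) := ⟨hF, hr⟩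
  obtain ⟨R, hRF, hRr⟩ : ∃ R : T2.FrameR ℚ,
      R.F = T2.frameOf130 (⟨μ, F, r⟩ : T7.Frame5 ℚ) hR5 ∧ R.r = r :=
    ⟨⟨T2.frameOf130 (⟨μ, F, r⟩ : T7.Frame5 ℚ) hR5, r, hr⟩, rfl, rfl⟩
  subst hRr
  have hpairD : ∀ φ ψ : G ℚ → ℂ, T5.innerD μ F φ ψ = T2.pair R.F φ ψ := fun φ ψ => by
    rw [hRF]
    rfl
  have hOA : T2.OpsAdjT ℚ 𝔫 n.type := (T2.opsT_closed ℚ 𝔫 n.type h𝔫 hτ).2
  have hP : T2.PairDefiniteT ℚ 𝔫 n.type := T2.pairDefiniteT_closed ℚ 𝔫 n.type h𝔫 hτ
  obtain ⟨ι, e, m, a, b, cc, hB⟩ := T2.cuspSpecT_closed ℚ 𝔫 n.type h𝔫 hτ R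
  have hcount : Countable ι :=
    T2.H291.countable_indexT291 h𝔫 hτ hB.cusp hB.norm_one hB.orth
  obtain ⟨g, hg⟩ := hcount.exists_injective_nat
  -- the members which are invariant under the positive scalars at the real place
  set J₁ : Set ι := {j | T2.H291.IsScInvT291 (e j)} with hJ₁
  -- the normalised data
  have hEig : ∀ j, j ∈ J₁ →
      InCls2Q341 n 𝔫 R.r (normDataQ140 𝔫 (a j) (b j) (m j)) (e j) := fun j hj =>
    { inv := ⟨isCusp5_ofT_140 (hB.cusp j), hj⟩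
      hecke := fun v hv => by
        rw [normData_a140 hv, normData_b140 hv]
        exact hB.hecke j v hv
      mean := fun w => (H19.meanEigQ_iff_of_cuspT19 (hB.cusp j) w _).1
        (meanEigRT_norm140 (hB.eig_real j w (hreal w))) }
  have hUnit : ∀ j, IsUnitOutQ 𝔫 (normDataQ140 𝔫 (a j) (b j) (m j)) := by
    intro j
    refine ⟨fun v hv => ?_, fun w t ht => ?_⟩
    · rw [normData_a140 hv, normData_b140 hv]
      exact ⟨hB.unit_b j v hv, hB.conj_a j v hv, hB.bound_a j v hv⟩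
    · rw [normData_m140 ht]
      exact ⟨hB.real_m j w t ht, H19.norm_meanEigRT_le19 (hB.cusp j)
        (exists_ne_zero140 R.F (hB.norm_one j)) (hB.eig_real j w (hreal w)) ht⟩
  -- a member of `V₂` is orthogonal to the members which are not kept
  have hperp : ∀ ψ : G ℚ → ℂ, InV2Q341 n 𝔫 R.r ψ → ∀ j, j ∉ J₁ → T2.pair R.F ψ (e j) = 0 :=
    fun ψ hψ j hj => orth_of_central140 hOA R (isCuspT_of5_140 hψ.cusp) (hB.cusp j)
      hψ.arch_scalar (c := cc j) (hB.central j) (hB.unit_c j) hj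
  -- finiteness of the classes
  have hFin : ∀ j₀ : ι, j₀ ∈ J₁ → {j : ι | j ∈ J₁ ∧ normDataQ140 𝔫 (a j) (b j) (m j)
      = normDataQ140 𝔫 (a j₀) (b j₀) (m j₀)}.Finite := by
    intro j₀ hj₀
    have h1 := T2.H291.finite_meanClassT291 (R := R) (u := fun j : J₁ => e j.1)
      (m := fun j : J₁ => m j.1) hreal h𝔫 hτ (fun j => hB.cusp j.1) (fun j => j.2)
      (fun j => hB.norm_one j.1)
      (fun i j hij => hB.orth i.1 j.1 (fun h => hij (Subtype.ext h)))
      (fun j w => hB.eig_real j.1 w (hreal w)) ⟨j₀, hj₀⟩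
    refine (h1.image Subtype.val).subset ?_
    rintro j ⟨hj, hjc⟩
    refine ⟨⟨j, hj⟩, ?_, rfl⟩
    intro w t ht
    show m j w t = m j₀ w t
    have h2 : (normDataQ140 𝔫 (a j) (b j) (m j)).m w t
        = (normDataQ140 𝔫 (a j₀) (b j₀) (m j₀)).m w t := by
      rw [hjc]
    rwa [normData_m140 ht, normData_m140 ht] at h2
  -- the sequence
  set v : ℕ → G ℚ → ℂ := fun k =>
    if h : ∃ j, g j = k then e (Classical.choose h) else 0 with hv
  set c : ℕ → EigData ℚ := fun k =>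
    if h : ∃ j, g j = k then
      normDataQ140 𝔫 (a (Classical.choose h)) (b (Classical.choose h)) (m (Classical.choose h))
    else ⟨fun _ => 0, fun _ => 0, fun _ _ => 0⟩ with hc
  have hv_g : ∀ j, v (g j) = e j := fun j => by
    have h : ∃ j', g j' = g j := ⟨j, rfl⟩
    simp only [hv, dif_pos h]
    rw [hg (Classical.choose_spec h)]
  have hc_g : ∀ j, c (g j) = normDataQ140 𝔫 (a j) (b j) (m j) := fun j => by
    have h : ∃ j', g j' = g j := ⟨j, rfl⟩
    simp only [hc, dif_pos h]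
    rw [hg (Classical.choose_spec h)]
  refine ⟨v, g '' J₁, c, ?_, ?_, ?_, ?_, ?_, ?_, ?_⟩
  · -- eig
    rintro _ ⟨j, hj, rfl⟩
    rw [hv_g, hc_g]
    exact hEig j hj
  · -- unit
    rintro _ ⟨j, hj, rfl⟩
    rw [hc_g]
    exact hUnit j
  · -- norm_one
    rintro _ ⟨j, hj, rfl⟩
    rw [hv_g, hpairD]
    exact hB.norm_one j
  · -- orth
    rintro _ ⟨i, hi, rfl⟩ _ ⟨j, hj, rfl⟩ hij
    rw [hv_g, hv_g, hpairD]
    exact hB.orth i j fun h => hij (by rw [h])
  · -- parseval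
    intro ψ hψ
    have hs := hB.parseval ψ (isCuspT_of5_140 hψ.cusp)
    have hsupp : Function.support (fun j => ‖T2.pair R.F ψ (e j)‖ ^ 2) ⊆ J₁ := by
      intro j hj
      by_contra hnot
      apply hj
      show ‖T2.pair R.F ψ (e j)‖ ^ 2 = 0
      rw [hperp ψ hψ j hnot, norm_zero]
      norm_num
    have hs1 : HasSum ((fun j => ‖T2.pair R.F ψ (e j)‖ ^ 2) ∘ (Subtype.val : J₁ → ι))
        (T2.nsq R.F ψ) := (hasSum_subtype_iff_of_support_subset hsupp).2 hs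
    have hnsq : (T5.innerD μ F ψ ψ).re = T2.nsq R.F ψ := by
      rw [hpairD]
      rfl
    rw [hnsq]
    refine ((Equiv.Set.image g J₁ hg).hasSum_iff
      (f := fun k : (g '' J₁ : Set ℕ) => ‖T5.innerD μ F ψ (v k)‖ ^ 2)).1 ?_
    have e1 : ((fun k : (g '' J₁ : Set ℕ) => ‖T5.innerD μ F ψ (v k)‖ ^ 2)
        ∘ (Equiv.Set.image g J₁ hg))
        = (fun j => ‖T2.pair R.F ψ (e j)‖ ^ 2) ∘ (Subtype.val : J₁ → ι) := by
      funext j
      show ‖T5.innerD μ F ψ (v (g j.1))‖ ^ 2 = ‖T2.pair R.F ψ (e j.1)‖ ^ 2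
      rw [hv_g, hpairD]
    rw [e1]
    exact hs1
  · -- finite
    rintro _ ⟨j₀, hj₀, rfl⟩
    refine ((hFin j₀ hj₀).image g).subset ?_
    rintro k ⟨⟨j, hj, rfl⟩, hk⟩
    rw [hc_g, hc_g] at hk
    exact ⟨j, ⟨hj, hk⟩, rfl⟩
  · -- exhaust
    rintro _ ⟨j₀, hj₀, rfl⟩ ψ hψ
    rw [hc_g] at hψ ⊢
    have hψc : T2.IsCuspT 𝔫 n.type R.r ψ := isCuspT_of5_140 hψ.inv.cusp
    -- orthogonality to the members outside the class
    have horth : ∀ j, ¬ (j ∈ J₁ ∧ normDataQ140 𝔫 (a j) (b j) (m j)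
        = normDataQ140 𝔫 (a j₀) (b j₀) (m j₀)) → T2.pair R.F ψ (e j) = 0 := by
      intro j hj
      by_contra hp
      by_cases hj1 : j ∈ J₁
      · exact hj ⟨hj1, normData_eq_of_pair_ne140 hOA R hψ (hB.cusp j)
          (fun v hv => hB.hecke j v hv) (fun w => hB.eig_real j w (hreal w))
          (fun v hv => hB.unit_b j v hv) (fun v hv => hB.conj_a j v hv)
          (fun w t ht => hB.real_m j w t ht) hp⟩
      · exact hp (hperp ψ hψ.inv j hj1)
    set S : Finset ι := (hFin j₀ hj₀).toFinset with hS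
    have hmemS : ∀ j, j ∈ S ↔ (j ∈ J₁ ∧ normDataQ140 𝔫 (a j) (b j) (m j)
        = normDataQ140 𝔫 (a j₀) (b j₀) (m j₀)) := fun j => by
      rw [hS, Set.Finite.mem_toFinset]
      rfl
    -- the pre-Hilbert space of the class
    set d : T2.H560.Cls560 ℚ := T2.H560.clsT560 𝔫 n.type R hP with hd
    set x : T2.H560.V560 d := T2.H560.mk560 d ψ hψc with hx
    set y : ι → T2.H560.V560 d := fun j => T2.H560.mk560 d (e j) (hB.cusp j) with hy
    have hin : ∀ (z : T2.H560.V560 d) (j : ι),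
        inner ℂ (y j) z = T2.pair R.F (T2.H560.fn560 z) (e j) := fun z j => rfl
    have hyy : ∀ i j, inner ℂ (y i) (y j) = if i = j then 1 else 0 := by
      intro i j
      rw [hin]
      by_cases h : i = j
      · subst h
        rw [if_pos rfl]
        exact hB.norm_one i
      · rw [if_neg h]
        exact hB.orth j i (fun h' => h h'.symm)
    set x' : T2.H560.V560 d := x - ∑ j ∈ S, (inner ℂ (y j) x) • y j with hx'
    have hzero : ∀ i, inner ℂ (y i) x' = 0 := by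
      intro i
      rw [hx', inner_sub_right, inner_sum]
      simp only [inner_smul_right, hyy, mul_ite, mul_one, mul_zero, Finset.sum_ite_eq]
      by_cases hi : i ∈ S
      · rw [if_pos hi, sub_self]
      · rw [if_neg hi, sub_zero, hin]
        exact horth i (fun h => hi ((hmemS i).2 h))
    have hx0 : x' = 0 := by
      have hpar := hB.parseval (T2.H560.fn560 x') (T2.H560.fn560_mem x')
      have h0 : (fun j => ‖T2.pair R.F (T2.H560.fn560 x') (e j)‖ ^ 2) = fun _ => (0 : ℝ) := by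
        funext j
        have h := hzero j
        rw [hin] at h
        rw [h, norm_zero]
        norm_num
      rw [h0] at hpar
      have h1 : T2.nsq R.F (T2.H560.fn560 x') = 0 := hpar.unique hasSum_zero
      have h2 : ‖x'‖ ^ 2 = 0 := by
        rw [T2.H560.norm_sq560]
        exact h1
      exact norm_eq_zero.1 (pow_eq_zero_iff two_ne_zero |>.1 h2)
    have hxe : x = ∑ j ∈ S, (inner ℂ (y j) x) • y j := sub_eq_zero.1 hx0
    have hψeq : ψ = ∑ j ∈ S, (inner ℂ (y j) x) • e j := by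
      have h := congrArg T2.H560.fn560 hxe
      rw [fn_sum140] at h
      exact h
    rw [hψeq]
    refine Submodule.sum_mem _ fun j hj => Submodule.smul_mem _ _ (Submodule.subset_span ?_)
    refine ⟨g j, ⟨j, ((hmemS j).1 hj).1, rfl⟩, ?_, (hv_g j).symm⟩
    rw [hc_g]
    exact ((hmemS j).1 hj).2

example (n : QWt) : V2BasisQC341 n := v2BasisQC140 n

end Node

end Fermat.Agent.LT.T7.V2Q140

end
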