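import Mathlib
import Fermat.Agent.LT.T7.H140.SpecDownQPlug
import Fermat.Agent.LT.T7.H140.V2BasisQ

/-!
# Row LT, tower T7, quadratic step, registry row 2153 = NODE `L2Q.SpecDownQC`: CLOSED (helper140)

OFF-MAIN.  Additive, new names only (suffix `140`), no definition, no hole, nothing assumed.

    specDownQC_closed140 (F) : L2Q.SpecDownQC F          (every number field `F`)

= `specDownQC_of_v2basis140` (`H140/SpecDownQPlug.lean`: every other leaf of the three cuts,
by the theorem of its owner) applied to `V2Q140.v2BasisQC140` (`H140/V2BasisQ.lean`: the node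
`WBQ341.V2BasisQC341`, registry row 2445).
Also closed here: the nodes `SDQ140.WBasisQC n` and `SDQ140.DownBasisQC F n`.
-/

set_option autoImplicit false

namespace Fermat.Agent.LT.T7.SDQ140

open Fermat.Agent.LT

/-- The node `WBasisQC n` (registry row 2350), closed. -/
theorem wBasisQC_closed140 (n : L2Q.QWt) : WBasisQC n :=
  wBasisQC_of_v2basis140 n (V2Q140.v2BasisQC140 n)

/-- The node `DownBasisQC F n`, closed. -/
theorem downBasisQC_closed140 (F : Type) [Field F] [NumberField F] (n : L2Q.QWt) :
    DownBasisQC F n :=
  downBasisQC_of_v2basis140 F n (V2Q140.v2BasisQC140 n)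

/-- **Registry row 2153: `L2Q.SpecDownQC F`, CLOSED, for every number field `F`.** -/
theorem specDownQC_closed140 (F : Type) [Field F] [NumberField F] : L2Q.SpecDownQC F :=
  specDownQC_of_v2basis140 V2Q140.v2BasisQC140 F

end Fermat.Agent.LT.T7.SDQ140
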